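import Mathlib
import Fermat.Agent.MU.F3.I2.Kappa.CharOf
import Fermat.Agent.L.Degen.Wreath
import Fermat.Agent.MU.F3.Dict.RatioCusp
import Fermat.Agent.MU.F3.I2.NormC.NormProdC
import Fermat.Agent.MU.F3.I2.Kappa.Ratio
import Fermat.Agent.MU.L.Degen.CoresIndex
import Fermat.Agent.F3.I2.Deg.Push
import Fermat.Agent.MU.F3.I2.Kappa.Theta
import Fermat.Agent.MU.Lib.HeckeInputs.Complex
import Fermat.Agent.MU.F3.I2.Kappa.KappaC
import Fermat.Agent.MU.F3.I2.Descent.Uncond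
import Fermat.Agent.L.Degen.CoresPar

section MergeWrap_F3_I2_Deg_FormProd -- from F3/I2/Deg/FormProd.lean

set_option autoImplicit false

noncomputable section

namespace Fermat.Agent.F3Deg

open UpperHalfPlane CongruenceSubgroup Filter Topology
open scoped MatrixGroups ModularForm Manifold
open Fermat.Agent.F3EC Fermat.Agent.F3I2 Fermat.Agent.LDeg

variable {N₀ N : ℕ} {I : Type*} [Fintype I]

/-- The transfer of a character along a wreath hom. -/
def wreathChar (F : WreathHom ↥(Gamma0 N₀) ↥(Gamma0 N) I) (χ : ↥(Gamma0 N) →* ℂˣ) :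
    ↥(Gamma0 N₀) →* ℂˣ where
  toFun γ := ∏ i : I, χ (F.elt γ i)
  map_one' := by simp [F.elt_one]
  map_mul' γ δ := by
    have hperm : ∏ i : I, χ (F.elt δ (F.perm γ i)) = ∏ i : I, χ (F.elt δ i) :=
      Equiv.prod_comp (F.permEquiv γ) (fun i => χ (F.elt δ i))
    rw [← hperm, ← Finset.prod_mul_distrib]
    refine Finset.prod_congr rfl fun i _ => ?_
    rw [F.elt_mul, map_mul]

theorem wreathChar_apply (F : WreathHom ↥(Gamma0 N₀) ↥(Gamma0 N) I) (χ : ↥(Gamma0 N) →* ℂˣ)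
    (γ : ↥(Gamma0 N₀)) : wreathChar F χ γ = ∏ i : I, χ (F.elt γ i) := rfl

theorem wreathChar_one (F : WreathHom ↥(Gamma0 N₀) ↥(Gamma0 N) I) :
    wreathChar F (1 : ↥(Gamma0 N) →* ℂˣ) = 1 := by
  ext γ
  simp [wreathChar_apply]

theorem wreathChar_pow_eq_one (F : WreathHom ↥(Gamma0 N₀) ↥(Gamma0 N) I)
    {χ : ↥(Gamma0 N) →* ℂˣ} {n : ℕ} (hχ : ∀ γ, χ γ ^ n = 1) (γ : ↥(Gamma0 N₀)) :
    wreathChar F χ γ ^ n = 1 := by
  rw [wreathChar_apply, ← Finset.prod_pow]
  exact Finset.prod_eq_one fun i _ => hχ _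

theorem deg_zpow_sum {G : Type*} [CommGroup G] {J : Type*} (s : Finset J) (u : G) (f : J → ℤ) :
    u ^ (∑ i ∈ s, f i) = ∏ i ∈ s, u ^ f i := by
  classical
  induction s using Finset.induction_on with
  | empty => simp
  | insert a s ha ih => rw [Finset.sum_insert ha, Finset.prod_insert ha, zpow_add, ih]

/-- The character of the image under the operator of a wreath hom. -/
theorem charOf_eq_wreathChar (F : WreathHom ↥(Gamma0 N₀) ↥(Gamma0 N) I) (n : ℕ)
    (c : HomPar N) (c' : HomPar N₀) (h : c'.1 = F.op ℤ c.1) :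
    charOf n c' = wreathChar F (charOf n c) := by
  refine MonoidHom.ext fun γ => ?_
  rw [charOf_apply, h, WreathHom.op_apply, wreathChar_apply]
  simp only [charOf_apply]
  exact deg_zpow_sum _ _ _

/-- The product of the translates `f ∣[w] rep i` of a form with character `χ` on `Γ₀(N)` is a form
with character `wreathChar F χ` on `Γ₀(N₀)` (weight `w * |I|`). -/
theorem IsFormChar.wreathProd {w : ℤ} {χ : ↥(Gamma0 N) →* ℂˣ} {f : ℍ → ℂ}
    (hf : IsFormChar N w χ f) (F : WreathHom ↥(Gamma0 N₀) ↥(Gamma0 N) I) (rep : I → SL(2, ℤ))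
    (hF : ∀ (γ : ↥(Gamma0 N₀)) (i : I), rep i * (γ : SL(2, ℤ)) =
      ((F.elt γ i : ↥(Gamma0 N)) : SL(2, ℤ)) * rep (F.perm γ i)) :
    IsFormChar N₀ (w * (Fintype.card I : ℤ)) (wreathChar F χ) (∏ i : I, f ∣[w] rep i) := by
  have hcard : (Fintype.card I : ℤ) = ((Finset.univ : Finset I).card : ℤ) := by
    rw [Finset.card_univ]
  rw [hcard]
  refine ⟨fc_mdifferentiable_prod _ _ fun i _ => hf.mdiff.slash w _, fun γ => ?_, fun g => ?_⟩
  · rw [fc_prod_slash_SL2]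
    have h1 : ∀ i, (f ∣[w] rep i) ∣[w] (γ : SL(2, ℤ)) =
        ((χ (F.elt γ i) : ℂˣ) : ℂ) • (f ∣[w] rep (F.perm γ i)) := by
      intro i
      rw [← SlashAction.slash_mul, hF γ i, SlashAction.slash_mul, hf.slash]
      exact ModularForm.SL_smul_slash _ _ _ _
    simp_rw [h1]
    rw [Finset.prod_smul, wreathChar_apply]
    congr 1
    · push_cast
      rfl
    · exact Equiv.prod_comp (F.permEquiv γ) (fun x => f ∣[w] rep x)
  · rw [fc_prod_slash_SL2]
    refine fc_isBoundedAtImInfty_prod _ _ fun i _ => ?_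
    rw [← SlashAction.slash_mul]
    exact hf.bdd (rep i * g)

/-- The product of the translates of a nonzero holomorphic function is nonzero. -/
theorem wreathProd_ne_zero {w : ℤ} {f : ℍ → ℂ} (hf : MDiff f) (hf0 : f ≠ 0)
    (rep : I → SL(2, ℤ)) : (∏ i : I, f ∣[w] rep i) ≠ 0 :=
  fc_mdiff_prod_ne_zero _ _ (fun _ _ => hf.slash w _) (fun _ _ => fc_slash_ne_zero hf0 w _)

end Fermat.Agent.F3Deg
end
end MergeWrap_F3_I2_Deg_FormProd

section MergeWrap_F3_I2_Deg_NormFun -- from F3/I2/Deg/NormFun.lean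

set_option autoImplicit false
set_option linter.style.haveILetI false
set_option linter.unusedSectionVars false

noncomputable section

namespace Fermat.Agent.F3Deg

open UpperHalfPlane CongruenceSubgroup ModularCurve AlgebraicCurve
open Fermat.Agent.F3Dict Fermat.Agent.F3Dict.EmbFHom Fermat.Agent.F3Ratio
  Fermat.Agent.F3RatioCusp Fermat.Agent.F3I2 Fermat.Agent.S23 Fermat.Agent.LDeg
open scoped MatrixGroups ModularForm Manifold

/-- **Converse ratio bridge**: if `φ x = a / b` in `LL M` and `A · b = B · a` as functions on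
`ℍ`, then `x = A / B`. -/
theorem isRatio_of_mul_eq_mul {N M : ℕ} [NeZero N] [NeZero M] (hNM : N ∣ M) (x : ↥(F3I2.FC N))
    {w : ℤ} (A B : ModularForm (Gamma0 N) w) (hB : B ≠ 0) (a b : AL M) (hb : b ≠ 0)
    (hx : embHom N M hNM x * algebraMap (AL M) (LL M) b = algebraMap (AL M) (LL M) a)
    (hmul : mfFun A * (b : Fun) = mfFun B * (a : Fun)) : F3I2.IsRatio N x A B := by
  refine ⟨hB, ?_⟩
  have e1 : expLL M (embHom N M hNM x) = qExpand Kc M (x : LaurentSeries Kc) :=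
    expLL_embHom N M hNM x
  have e2 := congrArg (expLL M) hx
  rw [map_mul, expLL_algebraMap, expLL_algebraMap, e1] at e2
  have hA := (hasExp_mfFun M A).mul (hasExp_expAL M b)
  have hB' := (hasExp_mfFun M B).mul (hasExp_expAL M a)
  rw [hmul] at hA
  have key := hA.unique hB'
  rw [← e2] at key
  have hb0 : expAL M b ≠ 0 := by
    intro h0
    exact hb (expAL_injective M (h0.trans (map_zero _).symm))
  have key2 : qExpand Kc M (F3I2.qLaurent A) =
      qExpand Kc M ((x : LaurentSeries Kc) * F3I2.qLaurent B) := by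
    rw [map_mul]
    apply mul_right_cancel₀ hb0
    rw [key]
    ring
  exact qExpand_injective (R := Kc) M key2

/-- The translate of the cross-multiplication identity by `γ ∈ SL(2,ℤ)`. -/
theorem slFun_mul_smul_eq {N M : ℕ} {w : ℤ} (A B : ModularForm (Gamma0 N) w) (a b : AL M)
    (hmul : mfFun A * (b : Fun) = mfFun B * (a : Fun)) (γ : SL(2, ℤ)) :
    slFun A γ⁻¹ * ((γ • b : AL M) : Fun) = slFun B γ⁻¹ * ((γ • a : AL M) : Fun) := by
  ext τ
  have h1 : (mfFun A * (b : Fun)) (γ⁻¹ • τ) = (mfFun B * (a : Fun)) (γ⁻¹ • τ) := by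
    rw [hmul]
  rw [Fun.mul_apply, Fun.mul_apply, mfFun_apply, mfFun_apply] at h1
  rw [Fun.mul_apply, Fun.mul_apply, AL.coe_smul, AL.coe_smul, Fun.sl_smul_apply,
    Fun.sl_smul_apply, slFun_apply, slFun_apply]
  rw [mul_right_comm, h1]
  exact mul_right_comm _ _ _

section Main

variable (N₀ q : ℕ) [NeZero N₀] [NeZero q]

/-- The right coset representatives of `Γ₀(N₀ q)` in `Γ₀(N₀)`, as elements of `SL(2,ℤ)`. -/
def repSL (i : OnePoint (ZMod q)) : SL(2, ℤ) := ((coresRep N₀ q i : ↥(Gamma0 N₀)) : SL(2, ℤ))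

theorem repSL_mem (i : OnePoint (ZMod q)) : repSL N₀ q i ∈ Gamma0 N₀ :=
  (coresRep N₀ q i).2

variable {N₀ q}

/-- **The norm along `α` is the product of the conjugates** `rᵢ⁻¹ • x` in `LL (N₀ q)`. -/
theorem embHom_norm_alpha (hq : q.Prime) (hqN : ¬ q ∣ N₀) (x : ↥(F3I2.FC (N₀ * q))) :
    haveI : NeZero (N₀ * q) := ⟨Nat.mul_ne_zero (NeZero.ne N₀) (NeZero.ne q)⟩
    embHom N₀ (N₀ * q) (dvd_mul_right N₀ q)
        (Fermat.Agent.F3G.normAlong (heckeAlphaBar ℂ N₀ q) x)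
      = ∏ i : OnePoint (ZMod q),
          (repSL N₀ q i)⁻¹ • embHom (N₀ * q) (N₀ * q) dvd_rfl x := by
  haveI : NeZero (N₀ * q) := ⟨Nat.mul_ne_zero (NeZero.ne N₀) (NeZero.ne q)⟩
  obtain ⟨hfd, hrank⟩ := Fermat.Agent.KroneckerC.finrank_heckeAlphaBar N₀ q hq hqN
  refine Fermat.Agent.Kronecker.norm_hom_eq_prod_smul (Γ := SL(2, ℤ))
    (embHom N₀ (N₀ * q) (dvd_mul_right N₀ q)) (embHom (N₀ * q) (N₀ * q) dvd_rfl)
    (heckeAlphaBar ℂ N₀ q) (Fermat.Agent.KroneckerC.embHom_heckeAlphaBar N₀ q) hfd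
    (fun i => (repSL N₀ q i)⁻¹) (fun i y => ?_) (fun i j hij => ?_) ?_ x
  · exact (Fermat.Agent.KroneckerC.mem_Gamma0_iff_smul_embHom N₀ (N₀ * q) (dvd_mul_right N₀ q)
      _).mp (inv_mem (repSL_mem N₀ q i)) y
  · have hmem : repSL N₀ q j * (repSL N₀ q i)⁻¹ ∈ Gamma0 (N₀ * q) := by
      rw [Fermat.Agent.KroneckerC.mem_Gamma0_iff_smul_embHom (N₀ * q) (N₀ * q) dvd_rfl]
      intro y
      rw [mul_smul, hij y, smul_inv_smul]
    have h1 : coresRep N₀ q j = Fermat.Agent.L.incl N₀ q ⟨_, hmem⟩ * coresRep N₀ q i := by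
      apply Subtype.ext
      show repSL N₀ q j = repSL N₀ q j * (repSL N₀ q i)⁻¹ * repSL N₀ q i
      rw [inv_mul_cancel_right]
    exact (distinct_incl hq hqN j i _ h1).symm
  · rw [hrank, card_onePoint_zmod]

/-- The realization of `coresW` in `SL(2,ℤ)`. -/
theorem repSL_mul (hq : q.Prime) (hqN : ¬ q ∣ N₀) (γ : ↥(Gamma0 N₀)) (i : OnePoint (ZMod q)) :
    repSL N₀ q i * (γ : SL(2, ℤ)) =
      (((coresW hq hqN).elt γ i : ↥(Gamma0 (N₀ * q))) : SL(2, ℤ)) *
        repSL N₀ q ((coresW hq hqN).perm γ i) := by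
  have h := coresW_realizes hq hqN γ i
  exact congrArg (fun z : ↥(Gamma0 N₀) => (z : SL(2, ℤ))) h

theorem fun_prod_apply {ι : Type*} (s : Finset ι) (F : ι → Fun) (τ : ℍ) :
    (∏ i ∈ s, F i) τ = ∏ i ∈ s, F i τ := by
  classical
  induction s using Finset.induction_on with
  | empty => simp
  | insert a s ha ih => rw [Finset.prod_insert ha, Finset.prod_insert ha, Fun.mul_apply, ih]

theorem coe_prod_AL {M : ℕ} {ι : Type*} (s : Finset ι) (F : ι → AL M) :
    ((∏ i ∈ s, F i : AL M) : Fun) = ∏ i ∈ s, (F i : Fun) :=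
  map_prod (AL M).val F s

/-- **(Dα-C), the analytic core**: if `x = f / g` on `Γ₀(N₀ q)` then
`Norm_α x = ∏ᵢ (f ∣ rᵢ) / ∏ᵢ (g ∣ rᵢ)` on `Γ₀(N₀)`. -/
theorem isRatioF_norm_alpha (hq : q.Prime) (hqN : ¬ q ∣ N₀) {w : ℤ}
    {x : ↥(F3I2.FC (N₀ * q))} {f g : ℍ → ℂ}
    (hf : IsMF (G0 (N₀ * q)) w f) (hg : IsMF (G0 (N₀ * q)) w g)
    (h : IsRatioF (N₀ * q) x f g) :
    IsRatioF N₀ (Fermat.Agent.F3G.normAlong (heckeAlphaBar ℂ N₀ q) x)
      (∏ i : OnePoint (ZMod q), f ∣[w] repSL N₀ q i)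
      (∏ i : OnePoint (ZMod q), g ∣[w] repSL N₀ q i) := by
  haveI : NeZero (N₀ * q) := ⟨Nat.mul_ne_zero (NeZero.ne N₀) (NeZero.ne q)⟩
  obtain ⟨A, rfl⟩ := hf
  obtain ⟨B, rfl⟩ := hg
  obtain ⟨hg0, -, hqe⟩ := h
  have hB0 : B ≠ 0 := by
    rintro rfl
    exact hg0 rfl
  have hAB : F3I2.IsRatio (N₀ * q) x A B := ⟨hB0, hqe⟩
  -- the forms at level `N₀`
  have hFA := IsFormChar.wreathProd (isFormChar_of_modularForm A) (coresW hq hqN)
    (repSL N₀ q) (repSL_mul hq hqN)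
  have hFB := IsFormChar.wreathProd (isFormChar_of_modularForm B) (coresW hq hqN)
    (repSL N₀ q) (repSL_mul hq hqN)
  rw [wreathChar_one] at hFA hFB
  obtain ⟨A', hA'⟩ := hFA.exists_modularForm
  obtain ⟨B', hB'⟩ := hFB.exists_modularForm
  have hB'0 : B' ≠ 0 := by
    rintro rfl
    exact wreathProd_ne_zero (w := w) (ModularFormClass.holo B) hg0 (repSL N₀ q) hB'.symm
  -- the function field side
  obtain ⟨a, b, hb, hab⟩ := IsFractionRing.div_surjective (A := AL (N₀ * q))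
    (embHom (N₀ * q) (N₀ * q) dvd_rfl x)
  have hb0 : b ≠ 0 := nonZeroDivisors.ne_zero hb
  have hbL : algebraMap (AL (N₀ * q)) (LL (N₀ * q)) b ≠ 0 := by
    intro h0
    exact hb0 ((IsFractionRing.injective (AL (N₀ * q)) (LL (N₀ * q))) (by rw [h0, map_zero]))
  have hx : embHom (N₀ * q) (N₀ * q) dvd_rfl x * algebraMap (AL (N₀ * q)) (LL (N₀ * q)) b = algebraMap (AL (N₀ * q)) (LL (N₀ * q)) a := by
    rw [← hab, div_mul_cancel₀ _ hbL]
  have hmul := mul_eq_mul_of_isRatio dvd_rfl x A B hAB a b hx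
  set a' : AL (N₀ * q) := ∏ i : OnePoint (ZMod q), (repSL N₀ q i)⁻¹ • a with ha'
  set b' : AL (N₀ * q) := ∏ i : OnePoint (ZMod q), (repSL N₀ q i)⁻¹ • b with hb'
  have hb'0 : b' ≠ 0 := by
    rw [hb', Finset.prod_ne_zero_iff]
    intro i _ h0
    apply hb0
    have := congrArg (fun f => (repSL N₀ q i) • f) h0
    simpa using this
  have hx' : embHom N₀ (N₀ * q) (dvd_mul_right N₀ q)
        (Fermat.Agent.F3G.normAlong (heckeAlphaBar ℂ N₀ q) x) * algebraMap (AL (N₀ * q)) (LL (N₀ * q)) b'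
      = algebraMap (AL (N₀ * q)) (LL (N₀ * q)) a' := by
    rw [embHom_norm_alpha hq hqN x, ha', hb', map_prod, map_prod, ← Finset.prod_mul_distrib]
    refine Finset.prod_congr rfl fun i _ => ?_
    rw [← LL.smul_algebraMap, ← LL.smul_algebraMap, ← smul_mul', hx]
  have hmul' : mfFun A' * (b' : Fun) = mfFun B' * (a' : Fun) := by
    have e1 : mfFun A' = ∏ i : OnePoint (ZMod q), slFun A (repSL N₀ q i) := by
      ext τ
      rw [mfFun_apply, hA', Finset.prod_apply, fun_prod_apply]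
      rfl
    have e2 : mfFun B' = ∏ i : OnePoint (ZMod q), slFun B (repSL N₀ q i) := by
      ext τ
      rw [mfFun_apply, hB', Finset.prod_apply, fun_prod_apply]
      rfl
    rw [e1, e2, ha', hb', coe_prod_AL, coe_prod_AL, ← Finset.prod_mul_distrib,
      ← Finset.prod_mul_distrib]
    refine Finset.prod_congr rfl fun i _ => ?_
    have h1 := slFun_mul_smul_eq A B a b hmul (repSL N₀ q i)⁻¹
    rwa [inv_inv] at h1
  have hfin := (isRatio_of_mul_eq_mul (dvd_mul_right N₀ q) _ A' B' hB'0 a' b' hb'0 hx'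
    hmul').isRatioF
  rwa [hA', hB'] at hfin

end Main

end Fermat.Agent.F3Deg
end
end MergeWrap_F3_I2_Deg_NormFun

section MergeWrap_F3_I2_Deg_ThetaPush -- from F3/I2/Deg/ThetaPush.lean

set_option autoImplicit false
set_option linter.style.haveILetI false
set_option linter.unusedSectionVars false

noncomputable section

namespace Fermat.Agent.F3Deg

open UpperHalfPlane CongruenceSubgroup ModularCurve AlgebraicCurve
open Fermat.Agent.F3I2 Fermat.Agent.S23 Fermat.Agent.LDeg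
open scoped MatrixGroups ModularForm Manifold

/-- `α_*` on divisor classes, over any constant field `L` with the Hecke inputs. -/
def pushAlphaAlong (L : Type*) [Field L] [Algebra ℚ L] (N₀ q : ℕ) [NeZero N₀] [NeZero q]
    (h : HeckeInputsAlong L N₀ q) :
    Pic0 L (laurentBaseChange L (modularFunctionFieldFull (N₀ * q))) →+
      Pic0 L (laurentBaseChange L (modularFunctionFieldFull N₀)) :=
  pushPic (heckeAlphaBar L N₀ q) h.fst h.snd.snd.snd.fst h.snd.snd.snd.snd.2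

theorem pushAlphaAlong_mk (L : Type*) [Field L] [Algebra ℚ L] (N₀ q : ℕ) [NeZero N₀] [NeZero q]
    (h : HeckeInputsAlong L N₀ q)
    (D : Divisor.degZero (K := L)
      (F := laurentBaseChange L (modularFunctionFieldFull (N₀ * q)))) :
    pushAlphaAlong L N₀ q h (Pic0.mk D) = Pic0.mk (pushDegZero (heckeAlphaBar L N₀ q) h.fst D) :=
  rfl

/-- Slash of a power, for `SL(2,ℤ)`. -/
theorem slash_pow_SL2 (f : ℍ → ℂ) (w : ℤ) (n : ℕ) (γ : SL(2, ℤ)) :
    (f ^ n) ∣[(n : ℤ) * w] γ = (f ∣[w] γ) ^ n := by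
  induction n with
  | zero =>
    simp only [pow_zero, Nat.cast_zero, zero_mul]
    exact ModularForm.is_invariant_one γ
  | succ k ih =>
    have e : ((k + 1 : ℕ) : ℤ) * w = (k : ℤ) * w + w := by push_cast; ring
    rw [e, pow_succ, pow_succ, ModularForm.mul_slash_SL2, ih]

variable {N₀ q : ℕ} [NeZero N₀] [NeZero q]

/-- **`IsTheta` and `α_*`.** -/
theorem IsTheta.pushAlpha (hq : q.Prime) (hqN : ¬ q ∣ N₀) {n : ℕ}
    {χ : ↥(Gamma0 (N₀ * q)) →* ℂˣ} {c : Pic0 ℂ (FC (N₀ * q))}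
    (h : IsTheta (N₀ * q) n χ c) :
    IsTheta N₀ n (wreathChar (coresW hq hqN) χ)
      (pushAlphaAlong ℂ N₀ q (Fermat.Agent.HeckeInputs.hi_heckeInputsAlong_complex N₀ q) c) := by
  haveI : NeZero (N₀ * q) := ⟨Nat.mul_ne_zero (NeZero.ne N₀) (NeZero.ne q)⟩
  obtain ⟨hχ, w, f, B, x, D, hf, hB, hf0, hB0, hr, hD, rfl⟩ := h
  set hH := Fermat.Agent.HeckeInputs.hi_heckeInputsAlong_complex N₀ q with hHdef
  have hf' := IsFormChar.wreathProd hf (coresW hq hqN) (repSL N₀ q) (repSL_mul hq hqN)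
  have hB' := IsFormChar.wreathProd hB (coresW hq hqN) (repSL N₀ q) (repSL_mul hq hqN)
  rw [wreathChar_one] at hB'
  refine ⟨wreathChar_pow_eq_one _ hχ, _, _, _,
    Fermat.Agent.F3G.normAlong (heckeAlphaBar ℂ N₀ q) x,
    pushDegZero (heckeAlphaBar ℂ N₀ q) hH.fst D, hf', hB',
    wreathProd_ne_zero hf.mdiff hf0 _, wreathProd_ne_zero hB.mdiff hB0 _, ?_, ?_, rfl⟩
  · have hfm : IsMF (G0 (N₀ * q)) ((n : ℤ) * w) (f ^ n) := hf.pow_isMF hχ
    have hBm : IsMF (G0 (N₀ * q)) ((n : ℤ) * w) (B ^ n) :=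
      (hB.isMF.pow n).cast (mul_comm _ _)
    have key := isRatioF_norm_alpha hq hqN hfm hBm hr
    simp only [slash_pow_SL2, Finset.prod_pow] at key
    exact key
  · exact IsRootDiv.push (heckeAlphaBar ℂ N₀ q) hH.fst hH.snd.snd.snd.fst hH.snd.snd.snd.snd.2 hD

end Fermat.Agent.F3Deg
end
end MergeWrap_F3_I2_Deg_ThetaPush

section MergeWrap_F3_I2_Deg_KappaPush -- from F3/I2/Deg/KappaPush.lean

set_option autoImplicit false
set_option linter.style.haveILetI false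
set_option linter.unusedSectionVars false

noncomputable section

namespace Fermat.Agent.F3Deg

open UpperHalfPlane CongruenceSubgroup ModularCurve AlgebraicCurve
open Fermat.Agent.F3I2 Fermat.Agent.S23 Fermat.Agent.LDeg Fermat.Agent.F3EC Fermat.Agent.RR
open scoped MatrixGroups ModularForm Manifold

variable (N₀ q : ℕ) [NeZero N₀] [NeZero q]

/-- **`α_*`** `: J₀(N₀ q)(ℚ̄) → J₀(N₀)(ℚ̄)`, the pushforward of divisor classes along
`α = heckeAlphaBar ℚ̄ N₀ q : F_{N₀} ⊂ F_{N₀ q}` (the norm on functions). -/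
def pushAlpha : JZero (N₀ * q) →+ JZero N₀ :=
  pushAlphaAlong (AlgebraicClosure ℚ) N₀ q
    (Fermat.Agent.HeckeInputs.hi_heckeInputsAlong_Qbar N₀ q)

theorem pushAlpha_mk
    (D : Divisor.degZero (K := AlgebraicClosure ℚ) (F := modularFunctionFieldBar (N₀ * q))) :
    pushAlpha N₀ q (Pic0.mk D) = Pic0.mk (pushDegZero (heckeAlphaBar (AlgebraicClosure ℚ) N₀ q)
      (Fermat.Agent.HeckeInputs.hi_heckeInputsAlong_Qbar N₀ q).fst D) :=
  rfl

/-- **`bc` commutes with `α_*`.** -/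
theorem descBc_pushAlpha (y : JZero (N₀ * q)) :
    descBc N₀ (pushAlpha N₀ q y) =
      pushAlphaAlong ℂ N₀ q (Fermat.Agent.HeckeInputs.hi_heckeInputsAlong_complex N₀ q)
        (descBc (N₀ * q) y) := by
  letI := descAlgebraQbarC
  obtain ⟨D, rfl⟩ := Pic0.mk_surjective y
  rw [pushAlpha_mk, descBc_mk, descBc_mk, pushAlphaAlong_mk]
  congr 1
  apply Subtype.ext
  show descBcDiv N₀ (Divisor.pushforwardAlong (heckeAlphaBar (AlgebraicClosure ℚ) N₀ q)
      (Fermat.Agent.HeckeInputs.hi_heckeInputsAlong_Qbar N₀ q).fst (D : Divisor _ _)) =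
    Divisor.pushforwardAlong (heckeAlphaBar ℂ N₀ q)
      (Fermat.Agent.HeckeInputs.hi_heckeInputsAlong_complex N₀ q).fst
      (descBcDiv (N₀ * q) (D : Divisor _ _))
  exact DescPlaces.bcDiv_pushforwardAlong
    (descPlacesQC (Fermat.Agent.RRMod.isRRField_bar N₀))
    (descPlacesQC (Fermat.Agent.RRMod.isRRField_bar (N₀ * q)))
    (heckeAlphaBar (AlgebraicClosure ℚ) N₀ q) (heckeAlphaBar ℂ N₀ q)
    (Fermat.Agent.HeckeInputs.hi_heckeInputsAlong_Qbar N₀ q).fst
    (Fermat.Agent.HeckeInputs.hi_heckeInputsAlong_complex N₀ q).fst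
    (DescPlaces.descTheta_heckeAlphaBar N₀ q)
    (Fermat.Agent.RRMod.isRRField_bar N₀).deg_one
    (Fermat.Agent.RRMod.isRRField_bar (N₀ * q)).deg_one
    (descIsRRField_FC N₀).deg_one (descIsRRField_FC (N₀ * q)).deg_one D

variable {N₀ q}

/-- The character of the transfer. -/
theorem charOf_coresPar (hq : q.Prime) (hqN : ¬ q ∣ N₀) (n : ℕ) (c : HomPar (N₀ * q)) :
    charOf n (coresPar N₀ q c) = wreathChar (coresW hq hqN) (charOf n c) :=
  charOf_eq_wreathChar (coresW hq hqN) n c (coresPar N₀ q c)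
    ((coresPar_coe N₀ q c).trans (coresAll_eq_op hq hqN ℤ c.1))

/-- **(Dα)**, graph form: `IsKappa n c y → IsKappa n (tr c) (α_* y)`. -/
theorem IsKappa.pushAlpha (hq : q.Prime) (hqN : ¬ q ∣ N₀) {n : ℕ} {c : HomPar (N₀ * q)}
    {y : JZero (N₀ * q)} (h : IsKappa (descBc (N₀ * q)) n c y) :
    IsKappa (descBc N₀) n (coresPar N₀ q c) (pushAlpha N₀ q y) := by
  have h1 := IsTheta.pushAlpha hq hqN h
  rw [IsKappa, descBc_pushAlpha, charOf_coresPar hq hqN]
  exact h1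

end Fermat.Agent.F3Deg
end
end MergeWrap_F3_I2_Deg_KappaPush
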