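import Mathlib
import Fermat.Agent.F3.I2.Deg.Push
import Fermat.Agent.MU.F3.I2.Deg.ALC
import Fermat.Agent.MU.Lib.BadRed.AtkinLehner
import Fermat.Agent.MU.Lib.HeckeInputs.Modular
import Fermat.Agent.MU.F3.I2.Descent.Uncond
import Fermat.Agent.MU.Lib.Kronecker.ConjGens

section MergeWrap_F3_I2_Deg_ALPush -- from F3/I2/Deg/ALPush.lean

set_option autoImplicit false
set_option linter.style.haveILetI false
set_option linter.unusedSectionVars false

noncomputable section

namespace Fermat.Agent.F3DegP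

open UpperHalfPlane ModularCurve AlgebraicCurve
open Fermat.Agent.F3I2 Fermat.Agent.F3G Fermat.Agent.F3Deg Fermat.Agent.HeckeInputs
  Fermat.Agent.S24Diff Fermat.Agent.RR
open Fermat.Agent.AtkinLehner (ALData)

/-! ### automorphisms of a function field -/

section Generic

variable {K F : Type*} [Field K] [Field F] [Algebra K F]

/-- The norm along an automorphism `e` is `e⁻¹`. -/
theorem normAlong_algEquiv (e : F ≃ₐ[K] F) (x : F) :
    normAlong e.toAlgHom x = e.symm x := by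
  letI alg := algebraAlong e.toAlgHom
  have hsurj : Function.Surjective (@algebraMap F F _ _ alg) := e.surjective
  have htop : (⊤ : @Subalgebra F F _ _ alg) = ⊥ :=
    (@Algebra.surjective_algebraMap_iff F F _ _ alg).mp hsurj
  have hrank : @Module.finrank F F _ _ alg.toModule = 1 :=
    (@Subalgebra.bot_eq_top_iff_finrank_eq_one F F _ _ _ alg _ _).mp htop.symm
  have hx : x = @algebraMap F F _ _ alg (e.symm x) := (e.apply_symm_apply x).symm
  show @Algebra.norm F F _ _ alg x = e.symm x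
  conv_lhs => rw [hx]
  rw [@Algebra.norm_algebraMap F F _ _ alg, hrank, pow_one]

variable [IsAlgClosed K] [CharZero K]

theorem finiteAlong_algEquiv (e : F ≃ₐ[K] F) {t : F} (h : IsFunctionFieldOver K F t) :
    FiniteAlong K e.toAlgHom :=
  hi_finiteAlong _ h.transcendental h

theorem isIntegral_algEquiv (e : F ≃ₐ[K] F) {t : F} (h : IsFunctionFieldOver K F t) :
    e.toAlgHom.toRingHom.IsIntegral :=
  hi_isIntegral_of_finiteAlong _ (finiteAlong_algEquiv e h)

theorem normFormulaAlong_algEquiv (e : F ≃ₐ[K] F) {t : F} (h : IsFunctionFieldOver K F t) :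
    NormFormulaAlong K e.toAlgHom (finiteAlong_algEquiv e h) :=
  haveI := Fermat.Agent.S24Diff.hasPrincipalDivisors h
  hi_normFormulaAlong _ _ h h

/-- The pushforward of divisor classes along an automorphism of a function field. -/
def pushAut (e : F ≃ₐ[K] F) {t : F} (h : IsFunctionFieldOver K F t) : Pic0 K F →+ Pic0 K F :=
  pushPic e.toAlgHom (isIntegral_algEquiv e h) (finiteAlong_algEquiv e h)
    (normFormulaAlong_algEquiv e h)

theorem pushAut_mk (e : F ≃ₐ[K] F) {t : F} (h : IsFunctionFieldOver K F t)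
    (E : Divisor.degZero (K := K) (F := F)) :
    pushAut e h (Pic0.mk E) = Pic0.mk (pushDegZero e.toAlgHom (isIntegral_algEquiv e h) E) :=
  rfl

/-- `e_* ((1/n) div x) = (1/n) div (e⁻¹ x)`. -/
theorem isRootDiv_pushAut (e : F ≃ₐ[K] F) {t : F} (h : IsFunctionFieldOver K F t) {n : ℕ}
    {x : F} {E : Divisor.degZero (K := K) (F := F)} (hE : IsRootDiv n x E) :
    IsRootDiv n (e.symm x) (pushDegZero e.toAlgHom (isIntegral_algEquiv e h) E) := by
  have h1 := IsRootDiv.push e.toAlgHom (isIntegral_algEquiv e h) (finiteAlong_algEquiv e h)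
    (normFormulaAlong_algEquiv e h) hE
  rwa [normAlong_algEquiv] at h1

end Generic

/-! ### the Atkin–Lehner involution -/

section Modular

variable (D : ALData)

theorem neZero_level : NeZero (D.Q * D.R) := ⟨(Nat.mul_pos D.hQ D.hR).ne'⟩

attribute [local instance] neZero_level

/-- **`w_*`** on `J₀(N)(ℚ̄)`, `N = D.Q * D.R`: the pushforward of divisor classes along helper84's
Atkin–Lehner involution `atkinLehner D`. -/
def pushW : JZero (D.Q * D.R) →+ JZero (D.Q * D.R) :=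
  pushAut (Fermat.Agent.AtkinLehner.atkinLehner D)
    (Fermat.Agent.S24.isFunctionFieldOver_jBar (D.Q * D.R))

/-- `w_*` over `ℂ`. -/
def pushWC : Pic0 ℂ (F3I2.FC (D.Q * D.R)) →+ Pic0 ℂ (F3I2.FC (D.Q * D.R)) :=
  pushAut (Fermat.Agent.F3DegW.atkinLehnerC D)
    (Fermat.Agent.F3Dict.isFunctionFieldOver_jBar (D.Q * D.R))

/-- `(w_ℂ)_* [(1/n) div x] = [(1/n) div (w_ℂ x)]`. -/
theorem isRootDiv_pushWC {n : ℕ} {x : ↥(F3I2.FC (D.Q * D.R))}
    {E : Divisor.degZero (K := ℂ) (F := F3I2.FC (D.Q * D.R))} (hE : IsRootDiv n x E) :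
    ∃ E' : Divisor.degZero (K := ℂ) (F := F3I2.FC (D.Q * D.R)),
      pushWC D (Pic0.mk E) = Pic0.mk E' ∧
        IsRootDiv n (Fermat.Agent.F3DegW.atkinLehnerC D x) E' := by
  refine ⟨_, pushAut_mk _ _ E, ?_⟩
  have h1 := isRootDiv_pushAut (Fermat.Agent.F3DegW.atkinLehnerC D)
    (Fermat.Agent.F3Dict.isFunctionFieldOver_jBar (D.Q * D.R)) hE
  have h2 : (Fermat.Agent.F3DegW.atkinLehnerC D).symm x =
      Fermat.Agent.F3DegW.atkinLehnerC D x := by
    rw [AlgEquiv.symm_apply_eq, Fermat.Agent.F3DegW.atkinLehnerC_atkinLehnerC]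
  rwa [h2] at h1

/-- `w_* [(1/n) div x] = [(1/n) div (w x)]` over `ℚ̄`. -/
theorem isRootDiv_pushW {n : ℕ} {x : ↥(modularFunctionFieldBar (D.Q * D.R))}
    {E : Divisor.degZero (K := AlgebraicClosure ℚ) (F := modularFunctionFieldBar (D.Q * D.R))}
    (hE : IsRootDiv n x E) :
    ∃ E' : Divisor.degZero (K := AlgebraicClosure ℚ)
        (F := modularFunctionFieldBar (D.Q * D.R)),
      pushW D (Pic0.mk E) = Pic0.mk E' ∧
        IsRootDiv n (Fermat.Agent.AtkinLehner.atkinLehner D x) E' := by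
  refine ⟨_, pushAut_mk _ _ E, ?_⟩
  have h1 := isRootDiv_pushAut (Fermat.Agent.AtkinLehner.atkinLehner D)
    (Fermat.Agent.S24.isFunctionFieldOver_jBar (D.Q * D.R)) hE
  have h2 : (Fermat.Agent.AtkinLehner.atkinLehner D).symm x =
      Fermat.Agent.AtkinLehner.atkinLehner D x := by
    rw [AlgEquiv.symm_apply_eq, Fermat.Agent.AtkinLehner.atkinLehner_atkinLehner]
  rwa [h2] at h1

/-! ### descent -/

theorem descThetaQC_jF (N d : ℕ) [NeZero d] (hd : d ∣ N) :
    descThetaQC N (Fermat.Agent.AtkinLehner.jF N d hd) = Fermat.Agent.F3DegW.jF N d hd := by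
  letI := descAlgebraQbarC
  apply Subtype.ext
  show coeffMap (algebraMap (AlgebraicClosure ℚ) ℂ)
      (qExpand (AlgebraicClosure ℚ) d (jqModC (AlgebraicClosure ℚ))) = qExpand ℂ d (jqModC ℂ)
  rw [coeffMap_qExpand, coeffMap_jqModC]

theorem jdBar_eq_jF (N d : ℕ) [NeZero d] (hd : d ∣ N) :
    Fermat.Agent.Kronecker.jdBar N d hd = Fermat.Agent.AtkinLehner.jF N d hd := by
  apply Subtype.ext
  rw [Fermat.Agent.Kronecker.coe_jdBar, Fermat.Agent.AtkinLehner.coe_jF]

/-- **`θ ∘ w = w_ℂ ∘ θ`.** -/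
theorem descTheta_atkinLehner (x : ↥(modularFunctionFieldBar (D.Q * D.R))) :
    descThetaQC (D.Q * D.R) (Fermat.Agent.AtkinLehner.atkinLehner D x) =
      Fermat.Agent.F3DegW.atkinLehnerC D (descThetaQC (D.Q * D.R) x) := by
  have key := Fermat.Agent.Kronecker.ringHom_ext_FBar (D.Q * D.R)
    ((descThetaQC (D.Q * D.R)).comp
      ((Fermat.Agent.AtkinLehner.atkinLehner D : _ ≃ₐ[AlgebraicClosure ℚ] _) : _ →+* _))
    (((Fermat.Agent.F3DegW.atkinLehnerC D : _ ≃ₐ[ℂ] _) : _ →+* _).comp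
      (descThetaQC (D.Q * D.R)))
    (fun c => by
      simp only [RingHom.comp_apply, RingHom.coe_coe, AlgEquiv.commutes,
        descThetaQC_algebraMap])
    (fun d hdne hd => by
      obtain ⟨d₁, e₁, d₂, f₂, h1, h2, rfl⟩ := Fermat.Agent.AtkinLehner.exists_factor D hd
      obtain ⟨p1, p2, p3, p4⟩ := Fermat.Agent.AtkinLehner.factor_pos D h1 h2
      haveI : NeZero (e₁ * d₂) := ⟨(Nat.mul_pos p2 p3).ne'⟩
      have hd' : e₁ * d₂ ∣ D.Q * D.R := by
        rw [← h1, ← h2]
        exact Nat.mul_dvd_mul (Dvd.intro_left d₁ rfl) (Dvd.intro f₂ rfl)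
      simp only [RingHom.comp_apply, RingHom.coe_coe]
      rw [jdBar_eq_jF, Fermat.Agent.AtkinLehner.atkinLehner_jF D d₁ e₁ d₂ f₂ h1 h2 hd hd',
        descThetaQC_jF, descThetaQC_jF,
        Fermat.Agent.F3DegW.atkinLehnerC_jF D d₁ e₁ d₂ f₂ h1 h2 hd hd'])
  exact RingHom.congr_fun key x

/-- `bcDiv ∘ w_* = (w_ℂ)_* ∘ bcDiv` on divisors. -/
theorem descBcDiv_pushW (E : Divisor (AlgebraicClosure ℚ) (modularFunctionFieldBar (D.Q * D.R))) :
    descBcDiv (D.Q * D.R) (Divisor.pushforwardAlong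
      (Fermat.Agent.AtkinLehner.atkinLehner D).toAlgHom
      (isIntegral_algEquiv _ (Fermat.Agent.S24.isFunctionFieldOver_jBar (D.Q * D.R))) E) =
    Divisor.pushforwardAlong (Fermat.Agent.F3DegW.atkinLehnerC D).toAlgHom
      (isIntegral_algEquiv _ (Fermat.Agent.F3Dict.isFunctionFieldOver_jBar (D.Q * D.R)))
      (descBcDiv (D.Q * D.R) E) :=
  letI := descAlgebraQbarC
  DescPlaces.bcDiv_pushforwardAlong
    (descPlacesQC (Fermat.Agent.RRMod.isRRField_bar (D.Q * D.R)))
    (descPlacesQC (Fermat.Agent.RRMod.isRRField_bar (D.Q * D.R)))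
    (Fermat.Agent.AtkinLehner.atkinLehner D).toAlgHom
    (Fermat.Agent.F3DegW.atkinLehnerC D).toAlgHom
    (isIntegral_algEquiv _ (Fermat.Agent.S24.isFunctionFieldOver_jBar (D.Q * D.R)))
    (isIntegral_algEquiv _ (Fermat.Agent.F3Dict.isFunctionFieldOver_jBar (D.Q * D.R)))
    (descTheta_atkinLehner D)
    (Fermat.Agent.RRMod.isRRField_bar (D.Q * D.R)).deg_one
    (Fermat.Agent.RRMod.isRRField_bar (D.Q * D.R)).deg_one
    (descIsRRField_FC (D.Q * D.R)).deg_one (descIsRRField_FC (D.Q * D.R)).deg_one E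

theorem pushW_mk
    (E : Divisor.degZero (K := AlgebraicClosure ℚ) (F := modularFunctionFieldBar (D.Q * D.R))) :
    pushW D (Pic0.mk E) = Pic0.mk (pushDegZero (Fermat.Agent.AtkinLehner.atkinLehner D).toAlgHom
      (isIntegral_algEquiv _ (Fermat.Agent.S24.isFunctionFieldOver_jBar (D.Q * D.R))) E) :=
  rfl

theorem pushWC_mk (E : Divisor.degZero (K := ℂ) (F := F3I2.FC (D.Q * D.R))) :
    pushWC D (Pic0.mk E) = Pic0.mk (pushDegZero (Fermat.Agent.F3DegW.atkinLehnerC D).toAlgHom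
      (isIntegral_algEquiv _ (Fermat.Agent.F3Dict.isFunctionFieldOver_jBar (D.Q * D.R))) E) :=
  rfl

/-- **`bc ∘ w_* = (w_ℂ)_* ∘ bc`.** -/
theorem descBc_pushW (y : JZero (D.Q * D.R)) :
    descBc (D.Q * D.R) (pushW D y) = pushWC D (descBc (D.Q * D.R) y) := by
  obtain ⟨E, rfl⟩ := Pic0.mk_surjective y
  rw [pushW_mk, descBc_mk, descBc_mk, pushWC_mk]
  congr 1
  apply Subtype.ext
  have key := descBcDiv_pushW D (E : Divisor _ _)
  simp only [coe_pushDegZero]
  exact key

end Modular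

end Fermat.Agent.F3DegP
end
end MergeWrap_F3_I2_Deg_ALPush
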