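import Mathlib
import Fermat.Agent.MU.Lib.BadRed.ALFun
import Fermat.Agent.L.Degen.IntMat
import Fermat.Agent.MU.F3.I2.FormChar
import Fermat.Agent.MU.F3.I2.Deg.ALC
import Fermat.Agent.MU.F3.Dict.RatioBridge
import Fermat.Agent.MU.F3.I2.Kappa.Ratio
import Fermat.Agent.MU.F3.I2.Kappa.Theta
import Fermat.Agent.MU.F3.I2.Kappa.CharOf
import Fermat.Agent.MU.L.Degen.CoresIndex
import Fermat.Agent.L.Degen.Wreath2
import Fermat.Agent.MU.F3.I2.Deg.ALPush
import Fermat.Agent.MU.F3.I2.Deg.Canon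
import Fermat.Agent.MU.F3.I2.Deg.PushGal
import Fermat.Agent.MU.Lib.BadRed.Bridge.LevelCast

section MergeWrap_F3_I2_Deg_ALForm -- from F3/I2/Deg/ALForm.lean

set_option autoImplicit false
set_option linter.unusedVariables false
set_option linter.style.haveILetI false

noncomputable section

namespace Fermat.Agent.F3DegW

open UpperHalfPlane CongruenceSubgroup Matrix.SpecialLinearGroup
open Fermat.Agent.AtkinLehner (ALData)
open Fermat.Agent.LDeg (intGL coe_intGL intGL_mul_eq_mul_iff mapGL_eq_intGL det_SL_ne_zero)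
open Fermat.Agent.F3I2
open scoped MatrixGroups ModularForm Manifold

/-! ### The integer matrix `W` -/

/-- The Atkin–Lehner matrix `W = (Q a, b; Q R, Q)`. -/
def wInt (D : ALData) : Matrix (Fin 2) (Fin 2) ℤ :=
  !![(D.Q : ℤ) * D.a, D.b; (D.Q : ℤ) * D.R, (D.Q : ℤ)]

theorem det_wInt (D : ALData) : (wInt D).det = (D.Q : ℤ) := by
  rw [wInt, Matrix.det_fin_two_of]
  linear_combination (D.Q : ℤ) * D.hdet

theorem det_wInt_ne_zero (D : ALData) : (wInt D).det ≠ 0 := by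
  rw [det_wInt]
  exact_mod_cast D.hQ.ne'

/-- `W` in `GL₂(ℝ)`. -/
def wGL (D : ALData) : GL (Fin 2) ℝ := intGL (wInt D) (det_wInt_ne_zero D)

theorem val_wGL (D : ALData) :
    ((wGL D : GL (Fin 2) ℝ) : Matrix (Fin 2) (Fin 2) ℝ) =
      !![(D.Q : ℝ) * D.a, (D.b : ℝ); (D.Q : ℝ) * D.R, (D.Q : ℝ)] := by
  rw [wGL, coe_intGL, wInt]
  ext i j
  fin_cases i <;> fin_cases j <;> simp

theorem det_wGL (D : ALData) : ((wGL D).det : ℝ) = (D.Q : ℝ) := by
  rw [Matrix.GeneralLinearGroup.val_det_apply, wGL, coe_intGL, ← RingHom.map_det, det_wInt]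
  simp

theorem det_wGL_pos (D : ALData) : 0 < ((wGL D).det : ℝ) := by
  rw [det_wGL]
  exact_mod_cast D.hQ

theorem σ_wGL (D : ALData) : σ (wGL D) = .refl ℝ ℂ := by
  rw [σ, if_pos (det_wGL_pos D)]

theorem denom_wGL (D : ALData) (τ : ℍ) :
    denom (wGL D) τ = ((D.Q : ℂ) * (D.R : ℂ)) * (τ : ℂ) + (D.Q : ℂ) := by
  simp [denom, val_wGL]

theorem num_wGL (D : ALData) (τ : ℍ) :
    num (wGL D) τ = (D.Q : ℂ) * (D.a : ℂ) * (τ : ℂ) + (D.b : ℂ) := by
  simp [num, val_wGL]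

/-- `W` acts on `ℍ` as helper84's Möbius transformation `D.W`. -/
theorem wGL_smul (D : ALData) (τ : ℍ) : wGL D • τ = D.W τ := by
  apply UpperHalfPlane.ext
  rw [UpperHalfPlane.coe_smul_of_det_pos (det_wGL_pos D), num_wGL, denom_wGL, ALData.coe_W]

/-- The automorphy factor of `W` in weight `k`. -/
def autW (D : ALData) (k : ℤ) (τ : ℍ) : ℂ :=
  (D.Q : ℂ) ^ (k - 1) * (((D.Q : ℂ) * (D.R : ℂ)) * (τ : ℂ) + (D.Q : ℂ)) ^ (-k)

theorem autW_ne_zero (D : ALData) (k : ℤ) (τ : ℍ) : autW D k τ ≠ 0 := by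
  have hQ : (D.Q : ℂ) ≠ 0 := by exact_mod_cast D.hQ.ne'
  exact mul_ne_zero (zpow_ne_zero _ hQ) (zpow_ne_zero _ (D.denom_ne_zero τ))

/-- **The slash by `W` in terms of `D.W`.** -/
theorem slash_wGL_apply (D : ALData) (k : ℤ) (f : ℍ → ℂ) (τ : ℍ) :
    (f ∣[k] wGL D) τ = autW D k τ * f (D.W τ) := by
  rw [ModularForm.slash_apply, σ_wGL, wGL_smul, denom_wGL, det_wGL]
  simp only [ContinuousAlgEquiv.refl_apply]
  have hQ : |(D.Q : ℝ)| = (D.Q : ℝ) := abs_of_nonneg (by positivity)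
  rw [hQ, autW]
  push_cast
  ring

theorem smul_slash_wGL (D : ALData) (k : ℤ) (c : ℂ) (f : ℍ → ℂ) :
    (c • f) ∣[k] wGL D = c • (f ∣[k] wGL D) := by
  rw [ModularForm.smul_slash, σ_wGL]
  rfl

theorem slash_wGL_ne_zero (D : ALData) (k : ℤ) {f : ℍ → ℂ} (hf : f ≠ 0) :
    f ∣[k] wGL D ≠ 0 := by
  intro h
  apply hf
  have h1 : (f ∣[k] wGL D) ∣[k] (wGL D)⁻¹ = 0 := by
    rw [h, SlashAction.zero_slash]
  rwa [← SlashAction.slash_mul, mul_inv_cancel, SlashAction.slash_one] at h1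

/-- The slash of a power. -/
theorem slash_wGL_pow (D : ALData) (k : ℤ) (f : ℍ → ℂ) (n : ℕ) (τ : ℍ) :
    ((f ∣[k] wGL D) ^ n) τ = (autW D k τ) ^ n * (f ^ n) (D.W τ) := by
  rw [Pi.pow_apply, slash_wGL_apply, mul_pow, Pi.pow_apply]

/-! ### Cancellation -/

theorem mul_right_cancel_of_det {A B W : Matrix (Fin 2) (Fin 2) ℤ} (hW : W.det ≠ 0)
    (h : A * W = B * W) : A = B := by
  have h1 : A * W * W.adjugate = B * W * W.adjugate := by rw [h]
  rw [Matrix.mul_assoc, Matrix.mul_assoc, Matrix.mul_adjugate, Matrix.mul_smul, Matrix.mul_smul,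
    Matrix.mul_one, Matrix.mul_one] at h1
  ext i j
  have h2 := congrFun (congrFun h1 i) j
  simp only [Matrix.smul_apply, smul_eq_mul] at h2
  exact mul_left_cancel₀ hW h2

theorem det_eq_one_of_mul_eq' {w g M : Matrix (Fin 2) (Fin 2) ℤ} (hw : w.det ≠ 0)
    (hg : g.det = 1) (h : w * g = M * w) : M.det = 1 := by
  have h1 := congrArg Matrix.det h
  rw [Matrix.det_mul, Matrix.det_mul, hg, mul_one] at h1
  have h2 : M.det * w.det = 1 * w.det := by rw [one_mul, ← h1]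
  exact mul_right_cancel₀ hw h2

/-! ### The conjugation `γ ↦ W γ W⁻¹` on `Γ₀(Q R)` -/

/-- The matrix `W γ W⁻¹`, for `γ ∈ Γ₀(Q R)`. -/
def conjWMat (D : ALData) (γ : SL(2, ℤ)) : Matrix (Fin 2) (Fin 2) ℤ :=
  !![D.Q * D.a * γ 0 0 + D.b * D.R * D.Q * (γ 1 0 / ((D.Q : ℤ) * D.R))
        - D.R * D.Q * D.a * γ 0 1 - D.R * D.b * γ 1 1,
     -(D.a * γ 0 0 * D.b) - D.b ^ 2 * D.R * (γ 1 0 / ((D.Q : ℤ) * D.R))
        + D.Q * D.a ^ 2 * γ 0 1 + D.a * D.b * γ 1 1;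
     D.R * D.Q * (γ 0 0 + D.Q * (γ 1 0 / ((D.Q : ℤ) * D.R)) - D.R * γ 0 1 - γ 1 1),
     -(D.R * γ 0 0 * D.b) - D.R * D.Q * (γ 1 0 / ((D.Q : ℤ) * D.R)) * D.b
        + D.R * D.Q * γ 0 1 * D.a + D.Q * γ 1 1 * D.a]

theorem QR_ne_zero (D : ALData) : ((D.Q : ℤ) * D.R) ≠ 0 := by
  have h1 : (D.Q : ℤ) ≠ 0 := by exact_mod_cast D.hQ.ne'
  have h2 : (D.R : ℤ) ≠ 0 := by exact_mod_cast D.hR.ne'
  exact mul_ne_zero h1 h2

theorem wInt_mul_eq (D : ALData) (γ : SL(2, ℤ)) (hγ : ((D.Q : ℤ) * D.R) ∣ γ 1 0) :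
    wInt D * (γ : Matrix (Fin 2) (Fin 2) ℤ) = conjWMat D γ * wInt D := by
  obtain ⟨c₀, hc₀⟩ := hγ
  have hdiv : γ 1 0 / ((D.Q : ℤ) * D.R) = c₀ := by
    rw [hc₀, Int.mul_ediv_cancel_left _ (QR_ne_zero D)]
  have hbez := D.hdet
  have hM : conjWMat D γ =
      !![D.Q * D.a * γ 0 0 + D.b * D.R * D.Q * c₀ - D.R * D.Q * D.a * γ 0 1 - D.R * D.b * γ 1 1,
         -(D.a * γ 0 0 * D.b) - D.b ^ 2 * D.R * c₀ + D.Q * D.a ^ 2 * γ 0 1 + D.a * D.b * γ 1 1;
         D.R * D.Q * (γ 0 0 + D.Q * c₀ - D.R * γ 0 1 - γ 1 1),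
         -(D.R * γ 0 0 * D.b) - D.R * D.Q * c₀ * D.b + D.R * D.Q * γ 0 1 * D.a
            + D.Q * γ 1 1 * D.a] := by
    rw [conjWMat, hdiv]
  rw [hM]
  ext i j
  fin_cases i <;> fin_cases j
  · simp only [wInt, Matrix.mul_apply, Fin.sum_univ_two, Fin.zero_eta, Fin.isValue,
      Matrix.of_apply, Matrix.cons_val', Matrix.cons_val_zero, Matrix.cons_val_one, hc₀]
    linear_combination (-(D.Q * D.a * γ 0 0 + D.b * (D.Q * D.R * c₀))) * hbez
  · simp only [wInt, Matrix.mul_apply, Fin.sum_univ_two, Fin.zero_eta, Fin.mk_one,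
      Fin.isValue, Matrix.of_apply, Matrix.cons_val', Matrix.cons_val_zero, Matrix.cons_val_one,
      hc₀]
    linear_combination (-(D.Q * D.a * γ 0 1 + D.b * γ 1 1)) * hbez
  · simp only [wInt, Matrix.mul_apply, Fin.sum_univ_two, Fin.zero_eta, Fin.mk_one,
      Fin.isValue, Matrix.of_apply, Matrix.cons_val', Matrix.cons_val_zero, Matrix.cons_val_one,
      hc₀]
    linear_combination (-(D.R * D.Q * γ 0 0 + D.Q * (D.Q * D.R * c₀))) * hbez
  · simp only [wInt, Matrix.mul_apply, Fin.sum_univ_two, Fin.mk_one, Fin.isValue,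
      Matrix.of_apply, Matrix.cons_val', Matrix.cons_val_zero, Matrix.cons_val_one, hc₀]
    linear_combination (-(D.R * D.Q * γ 0 1 + D.Q * γ 1 1)) * hbez

theorem det_conjWMat (D : ALData) (γ : SL(2, ℤ)) (hγ : ((D.Q : ℤ) * D.R) ∣ γ 1 0) :
    (conjWMat D γ).det = 1 :=
  det_eq_one_of_mul_eq' (det_wInt_ne_zero D) γ.det_coe (wInt_mul_eq D γ hγ)

theorem trace_conjWMat (D : ALData) (γ : SL(2, ℤ)) :
    (conjWMat D γ).trace = (γ : Matrix (Fin 2) (Fin 2) ℤ).trace := by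
  rw [Matrix.trace_fin_two, Matrix.trace_fin_two]
  simp only [conjWMat, Matrix.of_apply, Matrix.cons_val', Matrix.cons_val_zero,
    Matrix.cons_val_one]
  linear_combination (γ 0 0 + γ 1 1) * D.hdet

variable {N : ℕ}

theorem QR_dvd_of_mem (D : ALData) (hN : N = D.Q * D.R) {γ : SL(2, ℤ)} (hγ : γ ∈ Gamma0 N) :
    ((D.Q : ℤ) * D.R) ∣ γ 1 0 := by
  have h := Fermat.Agent.LDeg.mem_Gamma0_iff_dvd.mp hγ
  rw [hN] at h
  push_cast at h
  exact h

theorem conjWMat_mem (D : ALData) (hN : N = D.Q * D.R) (γ : SL(2, ℤ)) :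
    (N : ℤ) ∣ conjWMat D γ 1 0 := by
  rw [hN]
  simp only [conjWMat, Matrix.of_apply, Matrix.cons_val', Matrix.cons_val_zero,
    Matrix.cons_val_one]
  push_cast
  exact ⟨γ 0 0 + D.Q * (γ 1 0 / ((D.Q : ℤ) * D.R)) - D.R * γ 0 1 - γ 1 1, by ring⟩

/-- `γ ↦ W γ W⁻¹` as an element of `Γ₀(N)`. -/
def conjWElt (D : ALData) (hN : N = D.Q * D.R) (γ : ↥(Gamma0 N)) : ↥(Gamma0 N) :=
  ⟨⟨conjWMat D (γ : SL(2, ℤ)), det_conjWMat D _ (QR_dvd_of_mem D hN γ.2)⟩,
    Fermat.Agent.LDeg.mem_Gamma0_iff_dvd.mpr (conjWMat_mem D hN _)⟩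

theorem coe_conjWElt (D : ALData) (hN : N = D.Q * D.R) (γ : ↥(Gamma0 N)) :
    (((conjWElt D hN γ : ↥(Gamma0 N)) : SL(2, ℤ)) : Matrix (Fin 2) (Fin 2) ℤ) =
      conjWMat D (γ : SL(2, ℤ)) := rfl

theorem conjWElt_spec (D : ALData) (hN : N = D.Q * D.R) (γ : ↥(Gamma0 N)) :
    wInt D * ((γ : SL(2, ℤ)) : Matrix (Fin 2) (Fin 2) ℤ) =
      (((conjWElt D hN γ : ↥(Gamma0 N)) : SL(2, ℤ)) : Matrix (Fin 2) (Fin 2) ℤ) * wInt D :=
  wInt_mul_eq D _ (QR_dvd_of_mem D hN γ.2)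

theorem conjWElt_unique (D : ALData) (hN : N = D.Q * D.R) (γ γ' : ↥(Gamma0 N))
    (h : wInt D * ((γ : SL(2, ℤ)) : Matrix (Fin 2) (Fin 2) ℤ) =
      ((γ' : SL(2, ℤ)) : Matrix (Fin 2) (Fin 2) ℤ) * wInt D) : conjWElt D hN γ = γ' := by
  apply Subtype.ext
  apply Subtype.ext
  apply mul_right_cancel_of_det (det_wInt_ne_zero D)
  rw [← h]
  exact (conjWElt_spec D hN γ).symm

/-- **The conjugation `γ ↦ W γ W⁻¹`** of `Γ₀(N)`, `N = Q R`. -/
def conjW (D : ALData) (hN : N = D.Q * D.R) : ↥(Gamma0 N) →* ↥(Gamma0 N) where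
  toFun := conjWElt D hN
  map_one' := by
    apply conjWElt_unique
    simp
  map_mul' γ γ' := by
    apply conjWElt_unique
    rw [Subgroup.coe_mul, Matrix.SpecialLinearGroup.coe_mul, ← Matrix.mul_assoc,
      conjWElt_spec D hN γ, Matrix.mul_assoc, conjWElt_spec D hN γ', ← Matrix.mul_assoc,
      Subgroup.coe_mul, Matrix.SpecialLinearGroup.coe_mul]

theorem conjW_spec (D : ALData) (hN : N = D.Q * D.R) (γ : ↥(Gamma0 N)) :
    wInt D * ((γ : SL(2, ℤ)) : Matrix (Fin 2) (Fin 2) ℤ) =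
      (((conjW D hN γ : ↥(Gamma0 N)) : SL(2, ℤ)) : Matrix (Fin 2) (Fin 2) ℤ) * wInt D :=
  conjWElt_spec D hN γ

theorem conjW_unique (D : ALData) (hN : N = D.Q * D.R) (γ γ' : ↥(Gamma0 N))
    (h : wInt D * ((γ : SL(2, ℤ)) : Matrix (Fin 2) (Fin 2) ℤ) =
      ((γ' : SL(2, ℤ)) : Matrix (Fin 2) (Fin 2) ℤ) * wInt D) : conjW D hN γ = γ' :=
  conjWElt_unique D hN γ γ' h

theorem coe_conjW (D : ALData) (hN : N = D.Q * D.R) (γ : ↥(Gamma0 N)) :
    (((conjW D hN γ : ↥(Gamma0 N)) : SL(2, ℤ)) : Matrix (Fin 2) (Fin 2) ℤ) =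
      conjWMat D (γ : SL(2, ℤ)) := rfl

theorem trace_conjW (D : ALData) (hN : N = D.Q * D.R) (γ : ↥(Gamma0 N)) :
    (((conjW D hN γ : ↥(Gamma0 N)) : SL(2, ℤ)) : Matrix (Fin 2) (Fin 2) ℤ).trace =
      ((γ : SL(2, ℤ)) : Matrix (Fin 2) (Fin 2) ℤ).trace := by
  rw [coe_conjW, trace_conjWMat]

/-- `W γ = (W γ W⁻¹) W` in `GL₂(ℝ)`. -/
theorem wGL_mul_mapGL (D : ALData) (hN : N = D.Q * D.R) (γ : ↥(Gamma0 N)) :
    wGL D * mapGL ℝ (γ : SL(2, ℤ)) =
      mapGL ℝ ((conjW D hN γ : ↥(Gamma0 N)) : SL(2, ℤ)) * wGL D := by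
  rw [mapGL_eq_intGL, mapGL_eq_intGL, wGL]
  exact (intGL_mul_eq_mul_iff _ _ _ _).mpr (conjW_spec D hN γ)

/-! ### `W² = Q γ₀`, `γ₀ ∈ Γ₀(N)` -/

/-- The matrix `γ₀ = W² / Q`. -/
def wSqMat (D : ALData) : Matrix (Fin 2) (Fin 2) ℤ :=
  !![D.Q * D.a ^ 2 + D.R * D.b, D.b * (D.a + 1); D.R * D.Q * (D.a + 1), D.R * D.b + D.Q]

theorem det_wSqMat (D : ALData) : (wSqMat D).det = 1 := by
  simp only [wSqMat, Matrix.det_fin_two_of]
  linear_combination (D.Q * D.a - D.R * D.b + 1) * D.hdet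

theorem wInt_mul_self (D : ALData) : wInt D * wInt D = (D.Q : ℤ) • wSqMat D := by
  ext i j
  fin_cases i <;> fin_cases j <;>
    simp [wInt, wSqMat, Matrix.mul_apply, Fin.sum_univ_two] <;> ring

/-- `γ₀ = W² / Q` as an element of `Γ₀(N)`. -/
def wSq (D : ALData) (hN : N = D.Q * D.R) : ↥(Gamma0 N) :=
  ⟨⟨wSqMat D, det_wSqMat D⟩, Fermat.Agent.LDeg.mem_Gamma0_iff_dvd.mpr (by
    rw [hN]
    show ((D.Q * D.R : ℕ) : ℤ) ∣ wSqMat D 1 0
    simp only [wSqMat, Matrix.of_apply, Matrix.cons_val', Matrix.cons_val_zero,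
      Matrix.cons_val_one]
    push_cast
    exact ⟨D.a + 1, by ring⟩)⟩

theorem coe_wSq (D : ALData) (hN : N = D.Q * D.R) :
    (((wSq D hN : ↥(Gamma0 N)) : SL(2, ℤ)) : Matrix (Fin 2) (Fin 2) ℤ) = wSqMat D := rfl

/-- `conj_W ∘ conj_W` is the conjugation by `γ₀ ∈ Γ₀(N)`. -/
theorem conjW_conjW (D : ALData) (hN : N = D.Q * D.R) (γ : ↥(Gamma0 N)) :
    conjW D hN (conjW D hN γ) = wSq D hN * γ * (wSq D hN)⁻¹ := by
  apply conjW_unique
  apply mul_right_cancel_of_det (det_wInt_ne_zero D)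
  rw [Matrix.mul_assoc, Matrix.mul_assoc, wInt_mul_self, ← conjW_spec D hN γ, ← Matrix.mul_assoc,
    wInt_mul_self]
  have h1 : (((wSq D hN * γ * (wSq D hN)⁻¹ : ↥(Gamma0 N)) : SL(2, ℤ)) :
      Matrix (Fin 2) (Fin 2) ℤ) * wSqMat D = wSqMat D * ((γ : SL(2, ℤ)) :
        Matrix (Fin 2) (Fin 2) ℤ) := by
    rw [← coe_wSq D hN, ← Matrix.SpecialLinearGroup.coe_mul, ← Subgroup.coe_mul,
      ← Matrix.SpecialLinearGroup.coe_mul, ← Subgroup.coe_mul, inv_mul_cancel_right]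
  rw [Matrix.mul_smul, Matrix.smul_mul, h1]

theorem conjW_injective (D : ALData) (hN : N = D.Q * D.R) : Function.Injective (conjW D hN) := by
  intro γ γ' h
  have h1 := congrArg (conjW D hN) h
  rw [conjW_conjW, conjW_conjW] at h1
  exact mul_left_cancel (mul_right_cancel h1)

theorem conjW_surjective (D : ALData) (hN : N = D.Q * D.R) :
    Function.Surjective (conjW D hN) := by
  intro γ
  refine ⟨conjW D hN ((wSq D hN)⁻¹ * γ * wSq D hN), ?_⟩
  rw [conjW_conjW]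
  group

/-- A homomorphism to an abelian group is invariant under `conj_W ∘ conj_W`. -/
theorem hom_conjW_conjW {A : Type*} [CommGroup A] (D : ALData) (hN : N = D.Q * D.R)
    (χ : ↥(Gamma0 N) →* A) (γ : ↥(Gamma0 N)) : χ (conjW D hN (conjW D hN γ)) = χ γ := by
  rw [conjW_conjW, map_mul, map_mul, map_inv, mul_comm (χ _) (χ γ), mul_inv_cancel_right]

/-! ### Hermite decomposition of integer matrices -/

/-- Every integer matrix of non-zero determinant is `g' T` with `g' ∈ SL(2, ℤ)` and `T` upper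
triangular. -/
theorem exists_SL_mul_upper (M : Matrix (Fin 2) (Fin 2) ℤ) (hM : M.det ≠ 0) :
    ∃ (g' : SL(2, ℤ)) (T : Matrix (Fin 2) (Fin 2) ℤ), T 1 0 = 0 ∧
      M = (g' : Matrix (Fin 2) (Fin 2) ℤ) * T := by
  have hg0 : ((Int.gcd (M 0 0) (M 1 0) : ℕ) : ℤ) ≠ 0 := by
    intro h0
    have h1 : Int.gcd (M 0 0) (M 1 0) = 0 := by exact_mod_cast h0
    rw [Int.gcd_eq_zero_iff] at h1
    apply hM
    rw [Matrix.det_fin_two, h1.1, h1.2]
    ring
  obtain ⟨A', hA'⟩ : ((Int.gcd (M 0 0) (M 1 0) : ℕ) : ℤ) ∣ M 0 0 := Int.gcd_dvd_left _ _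
  obtain ⟨C', hC'⟩ : ((Int.gcd (M 0 0) (M 1 0) : ℕ) : ℤ) ∣ M 1 0 := Int.gcd_dvd_right _ _
  have hbez : ((Int.gcd (M 0 0) (M 1 0) : ℕ) : ℤ) =
      M 0 0 * Int.gcdA (M 0 0) (M 1 0) + M 1 0 * Int.gcdB (M 0 0) (M 1 0) :=
    Int.gcd_eq_gcd_ab _ _
  generalize ((Int.gcd (M 0 0) (M 1 0) : ℕ) : ℤ) = g at hg0 hA' hC' hbez
  generalize Int.gcdA (M 0 0) (M 1 0) = u at hbez
  generalize Int.gcdB (M 0 0) (M 1 0) = v at hbez
  have hbez' : A' * u + C' * v = 1 := by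
    have h1 : g * (A' * u + C' * v) = g * 1 := by
      rw [mul_one]
      calc g * (A' * u + C' * v) = (g * A') * u + (g * C') * v := by ring
        _ = g := by rw [← hA', ← hC', ← hbez]
    exact mul_left_cancel₀ hg0 h1
  refine ⟨⟨!![A', -v; C', u], by rw [Matrix.det_fin_two_of]; linear_combination hbez'⟩,
    !![g, u * M 0 1 + v * M 1 1; 0, A' * M 1 1 - C' * M 0 1], by simp, ?_⟩
  ext i j
  fin_cases i <;> fin_cases j
  · simp only [Matrix.mul_apply, Fin.sum_univ_two, Fin.zero_eta, Fin.isValue,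
      Matrix.of_apply, Matrix.cons_val', Matrix.cons_val_zero, Matrix.cons_val_one]
    rw [hA']
    ring
  · simp only [Matrix.mul_apply, Fin.sum_univ_two, Fin.zero_eta, Fin.mk_one,
      Fin.isValue, Matrix.of_apply, Matrix.cons_val', Matrix.cons_val_zero, Matrix.cons_val_one]
    linear_combination (-(M 0 1)) * hbez'
  · simp only [Matrix.mul_apply, Fin.sum_univ_two, Fin.zero_eta, Fin.mk_one,
      Fin.isValue, Matrix.of_apply, Matrix.cons_val', Matrix.cons_val_zero, Matrix.cons_val_one]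
    rw [hC']
    ring
  · simp only [Matrix.mul_apply, Fin.sum_univ_two, Fin.mk_one, Fin.isValue,
      Matrix.of_apply, Matrix.cons_val', Matrix.cons_val_zero, Matrix.cons_val_one]
    linear_combination (-(M 1 1)) * hbez'

/-- `W g = g' T` in `GL₂(ℝ)`, `T` upper triangular. -/
theorem exists_wGL_mul (D : ALData) (g : SL(2, ℤ)) :
    ∃ (g' : SL(2, ℤ)) (T : GL (Fin 2) ℝ), T 1 0 = 0 ∧
      wGL D * mapGL ℝ g = mapGL ℝ g' * T := by
  have hdet : (wInt D * (g : Matrix (Fin 2) (Fin 2) ℤ)).det ≠ 0 := by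
    rw [Matrix.det_mul, g.det_coe, mul_one]
    exact det_wInt_ne_zero D
  obtain ⟨g', T, hT, hMT⟩ := exists_SL_mul_upper _ hdet
  have hTdet : T.det ≠ 0 := by
    intro h0
    apply hdet
    rw [hMT, Matrix.det_mul, h0, mul_zero]
  refine ⟨g', intGL T hTdet, ?_, ?_⟩
  · show ((intGL T hTdet : GL (Fin 2) ℝ) : Matrix (Fin 2) (Fin 2) ℝ) 1 0 = 0
    rw [coe_intGL]
    simp [hT]
  · rw [mapGL_eq_intGL, mapGL_eq_intGL, wGL]
    exact (intGL_mul_eq_mul_iff _ _ _ _).mpr hMT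

/-! ### Forms with character under `W` -/

variable {k : ℤ} {χ : ↥(Gamma0 N) →* ℂˣ} {f : ℍ → ℂ}

/-- **Forms with character under the Atkin–Lehner operator**: if `f` has character `χ` on
`Γ₀(N)`, `N = Q R`, then `f ∣[k] W` has character `χ ∘ conj_W`. -/
theorem IsFormChar.slashW (D : ALData) (hN : N = D.Q * D.R) (hf : IsFormChar N k χ f) :
    IsFormChar N k (χ.comp (conjW D hN)) (f ∣[k] wGL D) := by
  refine ⟨hf.mdiff.slash k _, fun γ => ?_, fun g => ?_⟩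
  · have h1 : (f ∣[k] wGL D) ∣[k] (γ : SL(2, ℤ))
        = f ∣[k] (wGL D * mapGL ℝ (γ : SL(2, ℤ))) := by
      rw [SlashAction.slash_mul]
      rfl
    rw [h1, wGL_mul_mapGL D hN γ, SlashAction.slash_mul]
    have h2 : f ∣[k] (mapGL ℝ ((conjW D hN γ : ↥(Gamma0 N)) : SL(2, ℤ)))
        = ((χ (conjW D hN γ) : ℂˣ) : ℂ) • f := hf.slash (conjW D hN γ)
    rw [h2, smul_slash_wGL]
    rfl
  · have h1 : (f ∣[k] wGL D) ∣[k] g = f ∣[k] (wGL D * mapGL ℝ g) := by
      rw [SlashAction.slash_mul]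
      rfl
    obtain ⟨g', T, hT, hmul⟩ := exists_wGL_mul D g
    rw [h1, hmul, SlashAction.slash_mul]
    exact IsBoundedAtImInfty.slash k hT (hf.bdd g')

end Fermat.Agent.F3DegW
end
end MergeWrap_F3_I2_Deg_ALForm

section MergeWrap_F3_I2_Deg_ALRatio -- from F3/I2/Deg/ALRatio.lean

set_option autoImplicit false
set_option linter.style.haveILetI false
set_option linter.unusedSectionVars false

noncomputable section

namespace Fermat.Agent.F3DegR

open UpperHalfPlane CongruenceSubgroup ModularCurve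
open Fermat.Agent.F3Dict Fermat.Agent.F3Ratio Fermat.Agent.F3I2 Fermat.Agent.S23
open Fermat.Agent.AtkinLehner (ALData)
open Fermat.Agent.F3DegW
open scoped MatrixGroups ModularForm

/-- A function on `ℍ` as an element of `Fun`. -/
def asFun (F : ℍ → ℂ) : Fun := F

@[simp] theorem asFun_apply (F : ℍ → ℂ) (τ : ℍ) : asFun F τ = F τ := rfl

/-- The `q`-expansion of a modular form on `Γ₀(N)`, as an expansion in `u₁ = q`. -/
theorem hasExp_one_of_isMF {N : ℕ} {w : ℤ} {F : ℍ → ℂ} (hF : IsMF (G0 N) w F) :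
    HasExp 1 (asFun F) (qLaurent F) := by
  obtain ⟨A, rfl⟩ := hF
  exact HasExp.of_hasPExp (hasPExp_mfFun A)

/-- **Ratio ⇒ functions**: if `x = F / G` and `x = a / b` with `a, b ∈ B_N`, then
`F · b = G · a` on `ℍ`. -/
theorem mul_eq_mul_of_isRatioF {N : ℕ} {x : ↥(F3I2.FC N)} {F G : ℍ → ℂ}
    (h : IsRatioF N x F G) (a b : BN N) (hb : b ≠ 0)
    (hx : x = equivF N (algebraMap (BN N) (FB N) a / algebraMap (BN N) (FB N) b)) (τ : ℍ) :
    F τ * (b : Fun) τ = G τ * (a : Fun) τ := by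
  obtain ⟨-, ⟨w, hFm, hGm⟩, hq⟩ := h
  have hbexp : expB N b ≠ 0 := by
    intro h0
    exact hb (expB_injective N (h0.trans (map_zero _).symm))
  have hcoe : (x : LaurentSeries Kc) = expB N a / expB N b := by
    rw [hx, coe_equivF, map_div₀, expFB_algebraMap, expFB_algebraMap]
  have h1 : HasExp 1 (asFun F * (b : Fun)) (qLaurent F * expB N b) :=
    (hasExp_one_of_isMF hFm).mul (hasExp_expB N b)
  have h2 : HasExp 1 (asFun G * (a : Fun)) (qLaurent G * expB N a) :=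
    (hasExp_one_of_isMF hGm).mul (hasExp_expB N a)
  have key : qLaurent F * expB N b = qLaurent G * expB N a := by
    rw [hq, hcoe]
    field_simp
  rw [key] at h1
  have h3 := h1.fun_unique h2
  have h4 := congrArg (fun f : Fun => f τ) h3
  exact h4

/-- **Functions ⇒ ratio**: if `x = a / b` with `a, b ∈ B_N` and `F · b = G · a` on `ℍ` for
modular forms `F, G` on `Γ₀(N)`, then `x = F / G`. -/
theorem isRatioF_of_mul_eq_mul {N : ℕ} {x : ↥(F3I2.FC N)} {w : ℤ} {F G : ℍ → ℂ}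
    (hF : IsMF (G0 N) w F) (hG : IsMF (G0 N) w G) (hG0 : G ≠ 0) (a b : BN N) (hb : b ≠ 0)
    (hx : x = equivF N (algebraMap (BN N) (FB N) a / algebraMap (BN N) (FB N) b))
    (hmul : ∀ τ : ℍ, F τ * (b : Fun) τ = G τ * (a : Fun) τ) : IsRatioF N x F G := by
  refine ⟨hG0, ⟨w, hF, hG⟩, ?_⟩
  have hbexp : expB N b ≠ 0 := by
    intro h0
    exact hb (expB_injective N (h0.trans (map_zero _).symm))
  have hcoe : (x : LaurentSeries Kc) = expB N a / expB N b := by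
    rw [hx, coe_equivF, map_div₀, expFB_algebraMap, expFB_algebraMap]
  have h1 : HasExp 1 (asFun F * (b : Fun)) (qLaurent F * expB N b) :=
    (hasExp_one_of_isMF hF).mul (hasExp_expB N b)
  have h2 : HasExp 1 (asFun G * (a : Fun)) (qLaurent G * expB N a) :=
    (hasExp_one_of_isMF hG).mul (hasExp_expB N a)
  have hfun : asFun F * (b : Fun) = asFun G * (a : Fun) := by
    ext τ
    exact hmul τ
  rw [hfun] at h1
  have key := h1.unique h2
  rw [hcoe, div_mul_eq_mul_div, eq_div_iff hbexp, key]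
  ring

/-- **(Dw-C), the analytic core for `w`**: if `x = F / G` on `Γ₀(N)`, `N = D.Q * D.R`, and
`F' = u · (F ∘ W)`, `G' = u · (G ∘ W)` are modular forms on `Γ₀(N)`, then `w x = F' / G'`. -/
theorem isRatioF_atkinLehner (D : ALData) {x : ↥(F3I2.FC (D.Q * D.R))} {F G : ℍ → ℂ}
    (h : IsRatioF (D.Q * D.R) x F G) {w' : ℤ} {F' G' : ℍ → ℂ}
    (hF' : IsMF (G0 (D.Q * D.R)) w' F') (hG' : IsMF (G0 (D.Q * D.R)) w' G') (hG'0 : G' ≠ 0)
    (u : ℍ → ℂ) (hFu : ∀ τ, F' τ = u τ * F (D.W τ)) (hGu : ∀ τ, G' τ = u τ * G (D.W τ)) :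
    IsRatioF (D.Q * D.R) (atkinLehnerC D x) F' G' := by
  obtain ⟨a, b, hb, hab⟩ := IsFractionRing.div_surjective (A := BN (D.Q * D.R))
    ((equivF (D.Q * D.R)).symm x)
  have hb0 : b ≠ 0 := nonZeroDivisors.ne_zero hb
  have hx : x = equivF (D.Q * D.R)
      (algebraMap (BN (D.Q * D.R)) (FB (D.Q * D.R)) a /
        algebraMap (BN (D.Q * D.R)) (FB (D.Q * D.R)) b) := by
    rw [hab, AlgEquiv.apply_symm_apply]
  have hmul := mul_eq_mul_of_isRatioF h a b hb0 hx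
  have hwb : wB D b ≠ 0 := fun h0 => hb0 ((wB D).injective (h0.trans (map_zero _).symm))
  refine isRatioF_of_mul_eq_mul hF' hG' hG'0 (wB D a) (wB D b) hwb ?_ fun τ => ?_
  · rw [hx, atkinLehnerC_apply, AlgEquiv.symm_apply_apply, map_div₀, wFB_algebraMap,
      wFB_algebraMap]
  · have e1 : ((wB D b : BN (D.Q * D.R)) : Fun) τ = (b : Fun) (D.W τ) := rfl
    have e2 : ((wB D a : BN (D.Q * D.R)) : Fun) τ = (a : Fun) (D.W τ) := rfl
    rw [e1, e2, hFu, hGu, mul_assoc, hmul (D.W τ), mul_assoc]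

end Fermat.Agent.F3DegR
end
end MergeWrap_F3_I2_Deg_ALRatio

section MergeWrap_F3_I2_Deg_ALTheta -- from F3/I2/Deg/ALTheta.lean

set_option autoImplicit false
set_option linter.unusedVariables false
set_option linter.style.haveILetI false
set_option linter.unusedSectionVars false

noncomputable section

namespace Fermat.Agent.F3DegW

open UpperHalfPlane CongruenceSubgroup ModularCurve AlgebraicCurve
open Fermat.Agent.AtkinLehner (ALData)
open Fermat.Agent.F3I2 Fermat.Agent.S23 Fermat.Agent.F3DegR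
open scoped MatrixGroups ModularForm Manifold

/-- **`IsTheta` and `w`** (analytic core): if `c` is the class attached to the character `χ`,
and `c'` is the class of a root divisor of `w x` whenever `c` is the class of a root divisor of
`x`, then `c'` is the class attached to `χ ∘ conj_W`. -/
theorem isTheta_slashW (D : ALData) {n : ℕ} {χ : ↥(Gamma0 (D.Q * D.R)) →* ℂˣ}
    {c c' : Pic0 ℂ (FC (D.Q * D.R))} (h : IsTheta (D.Q * D.R) n χ c)
    (hpush : ∀ (x : FC (D.Q * D.R)) (E : Divisor.degZero (K := ℂ) (F := FC (D.Q * D.R))),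
      IsRootDiv n x E → Pic0.mk E = c →
        ∃ E' : Divisor.degZero (K := ℂ) (F := FC (D.Q * D.R)),
          IsRootDiv n (atkinLehnerC D x) E' ∧ Pic0.mk E' = c') :
    IsTheta (D.Q * D.R) n (χ.comp (conjW D rfl)) c' := by
  haveI : NeZero (D.Q * D.R) := ⟨(Nat.mul_pos D.hQ D.hR).ne'⟩
  obtain ⟨hχ, w, f, B, x, E, hf, hB, hf0, hB0, hr, hE, hc⟩ := h
  obtain ⟨E', hE', hc'⟩ := hpush x E hE hc
  have hχ' : ∀ γ, (χ.comp (conjW D rfl)) γ ^ n = 1 := fun γ => hχ _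
  have hf' : IsFormChar (D.Q * D.R) w (χ.comp (conjW D rfl)) (f ∣[w] wGL D) :=
    IsFormChar.slashW D rfl hf
  have hB' : IsFormChar (D.Q * D.R) w 1 (B ∣[w] wGL D) :=
    (IsFormChar.slashW D rfl hB).cast rfl (MonoidHom.one_comp _)
  refine ⟨hχ', w, f ∣[w] wGL D, B ∣[w] wGL D, atkinLehnerC D x, E', hf', hB',
    slash_wGL_ne_zero D w hf0, slash_wGL_ne_zero D w hB0, ?_, hE', hc'⟩
  have hfm : IsMF (G0 (D.Q * D.R)) ((n : ℤ) * w) ((f ∣[w] wGL D) ^ n) := hf'.pow_isMF hχ'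
  have hBm : IsMF (G0 (D.Q * D.R)) ((n : ℤ) * w) ((B ∣[w] wGL D) ^ n) :=
    (hB'.isMF.pow n).cast (mul_comm _ _)
  exact isRatioF_atkinLehner D hr hfm hBm (pow_ne_zero_fun (slash_wGL_ne_zero D w hB0) n)
    (fun τ => autW D w τ ^ n) (slash_wGL_pow D w f n) (slash_wGL_pow D w B n)

end Fermat.Agent.F3DegW
end
end MergeWrap_F3_I2_Deg_ALTheta

section MergeWrap_F3_I2_Deg_ALPar -- from F3/I2/Deg/ALPar.lean

set_option autoImplicit false
set_option linter.unusedVariables false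
set_option linter.style.haveILetI false
set_option linter.unusedSectionVars false

noncomputable section

namespace Fermat.Agent.F3DegW

open UpperHalfPlane CongruenceSubgroup Matrix.SpecialLinearGroup ModularCurve.Period
open Fermat.Agent.AtkinLehner (ALData)
open Fermat.Agent.F3I2 Fermat.Agent.F3EC Fermat.Agent.LDeg
open scoped MatrixGroups

variable {N : ℕ}

/-! ### `conj_W` as an automorphism -/

/-- `conj_W` as an automorphism of `Γ₀(N)`. -/
def conjWEquiv (D : ALData) (hN : N = D.Q * D.R) : ↥(Gamma0 N) ≃* ↥(Gamma0 N) :=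
  MulEquiv.ofBijective (conjW D hN) ⟨conjW_injective D hN, conjW_surjective D hN⟩

@[simp] theorem conjWEquiv_apply (D : ALData) (hN : N = D.Q * D.R) (γ : ↥(Gamma0 N)) :
    conjWEquiv D hN γ = conjW D hN γ := rfl

theorem conjW_symm_apply (D : ALData) (hN : N = D.Q * D.R) (γ : ↥(Gamma0 N)) :
    conjW D hN ((conjWEquiv D hN).symm γ) = γ :=
  (conjWEquiv D hN).apply_symm_apply γ

/-- An additive homomorphism is invariant under `conj_W ∘ conj_W`. -/
theorem addHom_conjW_conjW {A : Type*} [AddCommGroup A] (D : ALData) (hN : N = D.Q * D.R)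
    (c : Additive ↥(Gamma0 N) →+ A) (γ : ↥(Gamma0 N)) :
    c (Additive.ofMul (conjW D hN (conjW D hN γ))) = c (Additive.ofMul γ) := by
  rw [conjW_conjW, ofMul_mul, ofMul_mul, ofMul_inv, map_add, map_add, map_neg]
  abel

/-- For an additive homomorphism, `c ∘ conj_W⁻¹ = c ∘ conj_W`. -/
theorem addHom_conjW_symm {A : Type*} [AddCommGroup A] (D : ALData) (hN : N = D.Q * D.R)
    (c : Additive ↥(Gamma0 N) →+ A) (γ : ↥(Gamma0 N)) :
    c (Additive.ofMul ((conjWEquiv D hN).symm γ)) = c (Additive.ofMul (conjW D hN γ)) := by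
  rw [← addHom_conjW_conjW D hN c ((conjWEquiv D hN).symm γ), conjW_symm_apply]

/-! ### (W1) `wPar` -/

/-- `c ↦ c ∘ conj_W` on all homomorphisms. -/
def wAll (D : ALData) (hN : N = D.Q * D.R) {A : Type*} [AddCommGroup A]
    (c : Additive ↥(Gamma0 N) →+ A) : Additive ↥(Gamma0 N) →+ A :=
  c.comp (MonoidHom.toAdditive (conjW D hN))

@[simp] theorem wAll_apply (D : ALData) (hN : N = D.Q * D.R) {A : Type*} [AddCommGroup A]
    (c : Additive ↥(Gamma0 N) →+ A) (γ : ↥(Gamma0 N)) :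
    wAll D hN c (Additive.ofMul γ) = c (Additive.ofMul (conjW D hN γ)) := rfl

theorem wAll_parabolic (D : ALData) (hN : N = D.Q * D.R) {A : Type*} [AddCommGroup A]
    {c : Additive ↥(Gamma0 N) →+ A} (hc : IsParabolicHom (Gamma0 N) c) :
    IsParabolicHom (Gamma0 N) (wAll D hN c) := fun γ hγ =>
  hc (conjW D hN γ) (by rw [trace_conjW]; exact hγ)

/-- `wPar` as an additive map. -/
def wParAdd (D : ALData) (hN : N = D.Q * D.R) : HomPar N →+ HomPar N where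
  toFun c := ⟨wAll D hN c.1, wAll_parabolic D hN c.2⟩
  map_zero' := rfl
  map_add' _ _ := rfl

/-- **(W1)** The Atkin–Lehner operator on `HomPar N`, `N = Q R`: `(wPar D c)(γ) = c (W γ W⁻¹)`. -/
def wPar (D : ALData) (hN : N = D.Q * D.R) : HomPar N →ₗ[ℤ] HomPar N :=
  (wParAdd D hN).toIntLinearMap

@[simp] theorem wPar_coe (D : ALData) (hN : N = D.Q * D.R) (c : HomPar N) :
    ((wPar D hN c : HomPar N) : Additive ↥(Gamma0 N) →+ ℤ) = wAll D hN c.1 := rfl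

theorem wPar_apply (D : ALData) (hN : N = D.Q * D.R) (c : HomPar N) (γ : ↥(Gamma0 N)) :
    ((wPar D hN c : HomPar N) : Additive ↥(Gamma0 N) →+ ℤ) (Additive.ofMul γ) =
      (c : Additive ↥(Gamma0 N) →+ ℤ) (Additive.ofMul (conjW D hN γ)) := rfl

/-- `wPar` is an involution. -/
theorem wPar_wPar (D : ALData) (hN : N = D.Q * D.R) (c : HomPar N) :
    wPar D hN (wPar D hN c) = c := by
  apply Subtype.ext
  refine AddMonoidHom.ext fun γ => ?_
  obtain ⟨γ, rfl⟩ := Additive.ofMul.surjective γ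
  rw [wPar_apply, wPar_apply]
  exact addHom_conjW_conjW D hN c.1 γ

/-- **(d)** The character of `wPar D c`. -/
theorem charOf_wPar (D : ALData) (hN : N = D.Q * D.R) (n : ℕ) (c : HomPar N) :
    charOf n (wPar D hN c) = (charOf n c).comp (conjW D hN) := by
  refine MonoidHom.ext fun γ => ?_
  rfl

/-! ### Wreath homs: change of the target group -/

section MapElt

variable {G Γ Γ' Γ'' : Type*} [Group G] [Group Γ] [Group Γ'] [Group Γ''] {I : Type*}

/-- Composition of a wreath hom with a homomorphism of the target groups. -/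
def wreathMapElt (F : WreathHom Γ Γ' I) (ψ : Γ' →* Γ'') : WreathHom Γ Γ'' I where
  perm := F.perm
  elt γ i := ψ (F.elt γ i)
  perm_one := F.perm_one
  perm_mul := F.perm_mul
  elt_mul γ δ i := by rw [F.elt_mul, map_mul]

theorem wreathMapElt_op [Fintype I] (F : WreathHom Γ Γ' I) (ψ : Γ' →* Γ'') (A : Type*)
    [AddCommGroup A] (c : Additive Γ'' →+ A) :
    (wreathMapElt F ψ).op A c = F.op A (c.comp (MonoidHom.toAdditive ψ)) := by
  refine AddMonoidHom.ext fun γ => ?_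
  obtain ⟨γ, rfl⟩ := Additive.ofMul.surjective γ
  rfl

theorem wreathMapElt_realizes {F : WreathHom Γ Γ' I} {ι : Γ →* G} {ι' : Γ' →* G}
    {ι'' : Γ'' →* G} {rep : I → G} (hF : F.Realizes ι ι' rep) (ψ : Γ' →* Γ'')
    (h : ∀ e, ι'' (ψ e) = ι' e) : (wreathMapElt F ψ).Realizes ι ι'' rep := by
  intro γ i
  show rep i * ι γ = ι'' (ψ (F.elt γ i)) * rep (F.perm γ i)
  rw [h]
  exact hF γ i

end MapElt

/-! ### (W4) `coresPar ∘ wPar = coresParD` -/

section Cores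

variable {N₀ q : ℕ} [NeZero q]

/-- `n₀ = (a, b; R, Q) ∈ Γ₀(N₀)`, `R = N₀`: `W = n₀ diag(Q, 1)`. -/
def alN (D : ALData) (N₀ : ℕ) : ↥(Gamma0 N₀) :=
  mkGamma0 N₀ !![D.a, D.b; (D.R : ℤ), (D.Q : ℤ)]

theorem coe_alN (D : ALData) (hR : D.R = N₀) :
    (((alN D N₀ : ↥(Gamma0 N₀)) : SL(2, ℤ)) : Matrix (Fin 2) (Fin 2) ℤ) =
      !![D.a, D.b; (D.R : ℤ), (D.Q : ℤ)] :=
  coe_mkGamma0 (by rw [Matrix.det_fin_two_of]; linear_combination D.hdet)
    (by simp [hR])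

theorem wInt_eq_alN_mul (D : ALData) (hR : D.R = N₀) :
    wInt D = (((alN D N₀ : ↥(Gamma0 N₀)) : SL(2, ℤ)) : Matrix (Fin 2) (Fin 2) ℤ) *
      !![(D.Q : ℤ), 0; 0, 1] := by
  rw [coe_alN D hR, wInt]
  ext i j
  fin_cases i <;> fin_cases j <;> simp [Matrix.mul_apply, Fin.sum_univ_two] <;> ring

theorem diag_mul_eq_inclD (e : ↥(Gamma0 (N₀ * q))) :
    (!![(q : ℤ), 0; 0, 1] : Matrix (Fin 2) (Fin 2) ℤ) *
        ((e : SL(2, ℤ)) : Matrix (Fin 2) (Fin 2) ℤ) =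
      (((L.inclD N₀ q e : ↥(Gamma0 N₀)) : SL(2, ℤ)) : Matrix (Fin 2) (Fin 2) ℤ) *
        !![(q : ℤ), 0; 0, 1] := by
  obtain ⟨c, hc⟩ := L.q_dvd_of_mem N₀ q e.2
  have hq : (q : ℤ) ≠ 0 := by exact_mod_cast NeZero.ne q
  rw [L.inclD_coe, L.conjDMat]
  ext i j
  fin_cases i <;> fin_cases j
  · simp [Matrix.mul_apply, Fin.sum_univ_two]
    ring
  · simp [Matrix.mul_apply, Fin.sum_univ_two]
  · simp only [Matrix.mul_apply, Fin.sum_univ_two, Fin.zero_eta, Fin.mk_one,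
      Fin.isValue, Matrix.of_apply, Matrix.cons_val', Matrix.cons_val_zero, Matrix.cons_val_one]
    rw [hc, Int.mul_ediv_cancel_left _ hq]
    ring
  · simp [Matrix.mul_apply, Fin.sum_univ_two]

/-- `incl (W e W⁻¹) · n₀ = n₀ · (δ e δ⁻¹)`. -/
theorem incl_conjW_mul_alN (D : ALData) (hQ : D.Q = q) (hR : D.R = N₀)
    (hN : N₀ * q = D.Q * D.R) (e : ↥(Gamma0 (N₀ * q))) :
    L.incl N₀ q (conjW D hN e) * alN D N₀ = alN D N₀ * L.inclD N₀ q e := by
  apply Gamma0_ext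
  have hδ : (!![(D.Q : ℤ), 0; 0, 1] : Matrix (Fin 2) (Fin 2) ℤ).det ≠ 0 := by
    rw [Matrix.det_fin_two_of]
    simp only [mul_one, mul_zero, sub_zero]
    exact_mod_cast D.hQ.ne'
  apply mul_right_cancel_of_det hδ
  have hδq : (!![(D.Q : ℤ), 0; 0, 1] : Matrix (Fin 2) (Fin 2) ℤ) = !![(q : ℤ), 0; 0, 1] := by
    rw [hQ]
  have hL : (((L.incl N₀ q (conjW D hN e) * alN D N₀ : ↥(Gamma0 N₀)) : SL(2, ℤ)) :
      Matrix (Fin 2) (Fin 2) ℤ) * !![(D.Q : ℤ), 0; 0, 1] =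
        wInt D * ((e : SL(2, ℤ)) : Matrix (Fin 2) (Fin 2) ℤ) := by
    rw [coe_Gamma0_mul, L.incl_coe, Matrix.mul_assoc, ← wInt_eq_alN_mul D hR,
      ← conjW_spec D hN e]
  have hR' : (((alN D N₀ * L.inclD N₀ q e : ↥(Gamma0 N₀)) : SL(2, ℤ)) :
      Matrix (Fin 2) (Fin 2) ℤ) * !![(D.Q : ℤ), 0; 0, 1] =
        wInt D * ((e : SL(2, ℤ)) : Matrix (Fin 2) (Fin 2) ℤ) := by
    rw [coe_Gamma0_mul, Matrix.mul_assoc, hδq, ← diag_mul_eq_inclD e, ← hδq, ← Matrix.mul_assoc,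
      ← wInt_eq_alN_mul D hR]
  rw [hL, hR']

/-- **(W4)** on all homomorphisms. -/
theorem coresAll_wAll (D : ALData) (hq : q.Prime) (hqN : ¬ q ∣ N₀) (hQ : D.Q = q)
    (hR : D.R = N₀) (hN : N₀ * q = D.Q * D.R) {A : Type*} [AddCommGroup A]
    (c : Additive ↥(Gamma0 (N₀ * q)) →+ A) :
    L.coresAll N₀ q A (wAll D hN c) = L.coresAllD N₀ q A c := by
  rw [coresAll_eq_op hq hqN]
  -- the wreath hom of `incl`, with `elt` twisted by `conj_W⁻¹`
  set ψ : ↥(Gamma0 (N₀ * q)) →* ↥(Gamma0 (N₀ * q)) := (conjWEquiv D hN).symm.toMonoidHom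
    with hψ
  have hψc : ∀ e, conjW D hN (ψ e) = e := fun e => conjW_symm_apply D hN e
  have h1 : (wreathMapElt (coresW hq hqN) ψ).Realizes (MonoidHom.id ↥(Gamma0 N₀))
      ((L.incl N₀ q).comp (conjW D hN)) (coresRep N₀ q) :=
    wreathMapElt_realizes (coresW_realizes hq hqN) ψ fun e => by
      rw [MonoidHom.comp_apply, hψc]
  have hconj : ∀ e, (alN D N₀)⁻¹ * ((L.incl N₀ q).comp (conjW D hN)) e =
      L.inclD N₀ q e * (alN D N₀)⁻¹ := by
    intro e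
    rw [MonoidHom.comp_apply, inv_mul_eq_iff_eq_mul, ← mul_assoc, eq_mul_inv_iff_mul_eq]
    exact incl_conjW_mul_alN D hQ hR hN e
  have h2 := WreathHom.Realizes.of_conj h1 (alN D N₀)⁻¹ hconj
  have hd1 : CosetsDistinct ((L.incl N₀ q).comp (conjW D hN)) (coresRep N₀ q) := by
    intro i j n hn
    exact distinct_incl hq hqN i j (conjW D hN n) hn
  have hd2 := WreathHom.cosetsDistinct_of_conj hd1 (alN D N₀)⁻¹ hconj
  have h3 := coresFun_eq_op (L.inclD N₀ q) (L.inclD_injective N₀ q)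
    (wreathMapElt (coresW hq hqN) ψ) _ h2 hd2 A c
  rw [L.coresAllD, h3, wreathMapElt_op]
  congr 1
  refine AddMonoidHom.ext fun γ => ?_
  obtain ⟨γ, rfl⟩ := Additive.ofMul.surjective γ
  rw [wAll_apply]
  exact (addHom_conjW_symm D hN c γ).symm

/-- **(W4)** `coresPar N₀ q (wPar D c) = coresParD N₀ q c` (`Q = q`, `R = N₀`). -/
theorem coresPar_wPar (D : ALData) (hq : q.Prime) (hqN : ¬ q ∣ N₀) (hQ : D.Q = q)
    (hR : D.R = N₀) (hN : N₀ * q = D.Q * D.R) (c : HomPar (N₀ * q)) :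
    coresPar N₀ q (wPar D hN c) = coresParD N₀ q c := by
  apply Subtype.ext
  rw [coresPar_coe, coresParD_coe, wPar_coe]
  exact coresAll_wAll D hq hqN hQ hR hN c.1

end Cores

end Fermat.Agent.F3DegW
end
end MergeWrap_F3_I2_Deg_ALPar

section MergeWrap_F3_I2_Deg_ALKappa -- from F3/I2/Deg/ALKappa.lean

set_option autoImplicit false
set_option linter.unusedVariables false
set_option linter.style.haveILetI false
set_option linter.unusedSectionVars false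

noncomputable section

namespace Fermat.Agent.F3DegW

open UpperHalfPlane CongruenceSubgroup ModularCurve AlgebraicCurve
open Fermat.Agent.AtkinLehner (ALData)
open Fermat.Agent.F3I2 Fermat.Agent.F3EC Fermat.Agent.F3Deg Fermat.Agent.F3DegP
open scoped MatrixGroups

attribute [local instance] Fermat.Agent.F3DegP.neZero_level

/-- **`IsTheta` and `(w_ℂ)_*`.** -/
theorem isTheta_pushWC (D : ALData) {n : ℕ} {χ : ↥(Gamma0 (D.Q * D.R)) →* ℂˣ}
    {c : Pic0 ℂ (FC (D.Q * D.R))} (h : IsTheta (D.Q * D.R) n χ c) :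
    IsTheta (D.Q * D.R) n (χ.comp (conjW D rfl)) (pushWC D c) :=
  isTheta_slashW D h fun x E hE hc => by
    obtain ⟨E', h1, h2⟩ := isRootDiv_pushWC D hE
    exact ⟨E', h2, by rw [← h1, hc]⟩

/-- **(W3)** `IsKappa n c y → IsKappa n (wPar D c) (w_* y)`, level `D.Q * D.R`. -/
theorem isKappa_pushW (D : ALData) {n : ℕ} {c : HomPar (D.Q * D.R)} {y : JZero (D.Q * D.R)}
    (h : IsKappa (descBc (D.Q * D.R)) n c y) :
    IsKappa (descBc (D.Q * D.R)) n (wPar D rfl c) (pushW D y) := by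
  have h1 := isTheta_pushWC D h
  rw [IsKappa, descBc_pushW, charOf_wPar]
  exact h1

/-- **(Dw)** `w_* (κ_n c) = κ_n (wPar D c)`, level `D.Q * D.R`. -/
theorem kappaC_pushW (D : ALData) (n : ℕ) (c : HomPar (D.Q * D.R)) :
    pushW D ((kappaC (D.Q * D.R) n c : Fermat.Agent.F3.Jtors (D.Q * D.R) n) :
        JZero (D.Q * D.R)) =
      ((kappaC (D.Q * D.R) n (wPar D rfl c) : Fermat.Agent.F3.Jtors (D.Q * D.R) n) :
        JZero (D.Q * D.R)) := by
  rw [coe_kappaC, coe_kappaC]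
  rcases Nat.eq_zero_or_pos n with rfl | hn
  · rw [kappaFun_zero_level, kappaFun_zero_level, map_zero]
  · exact (kappaFun_eq_of_isKappa hn (isKappa_pushW D (isKappa_kappaFun hn c))).symm

end Fermat.Agent.F3DegW
end
end MergeWrap_F3_I2_Deg_ALKappa

section MergeWrap_F3_I2_Deg_ALLevel -- from F3/I2/Deg/ALLevel.lean

set_option autoImplicit false
set_option linter.unusedVariables false
set_option linter.style.haveILetI false
set_option linter.unusedSectionVars false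

noncomputable section

namespace Fermat.Agent.F3DegW

open UpperHalfPlane CongruenceSubgroup ModularCurve AlgebraicCurve
open Fermat.Agent.AtkinLehner (ALData)
open Fermat.Agent.F3I2 Fermat.Agent.F3EC Fermat.Agent.F3Deg Fermat.Agent.F3DegP
  Fermat.Agent.LDeg
open scoped MatrixGroups

attribute [local instance] Fermat.Agent.F3DegP.neZero_level

/-- **`w_*`** on `J₀(M)(ℚ̄)`, for a level `M = D.Q * D.R`. -/
def pushWAt (D : ALData) {M : ℕ} (hM : M = D.Q * D.R) : JZero M →+ JZero M := by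
  subst hM
  exact pushW D

@[simp] theorem pushWAt_rfl (D : ALData) : pushWAt D (rfl : D.Q * D.R = D.Q * D.R) = pushW D :=
  rfl

/-- **(W3)** at level `M`. -/
theorem isKappa_pushWAt (D : ALData) {M : ℕ} [NeZero M] (hM : M = D.Q * D.R) {n : ℕ}
    {c : HomPar M} {y : JZero M} (h : IsKappa (descBc M) n c y) :
    IsKappa (descBc M) n (wPar D hM c) (pushWAt D hM y) := by
  subst hM
  exact isKappa_pushW D h

/-- **(Dw)** at level `M`: `w_* (κ_n c) = κ_n (wPar D hM c)`. -/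
theorem kappaC_pushWAt (D : ALData) {M : ℕ} [NeZero M] (hM : M = D.Q * D.R) (n : ℕ)
    (c : HomPar M) :
    pushWAt D hM ((kappaC M n c : Fermat.Agent.F3.Jtors M n) : JZero M) =
      ((kappaC M n (wPar D hM c) : Fermat.Agent.F3.Jtors M n) : JZero M) := by
  subst hM
  exact kappaC_pushW D n c

/-- `w_*` is an involution on the image of `κ`. -/
theorem pushWAt_pushWAt_kappaC (D : ALData) {M : ℕ} [NeZero M] (hM : M = D.Q * D.R) (n : ℕ)
    (c : HomPar M) :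
    pushWAt D hM (pushWAt D hM ((kappaC M n c : Fermat.Agent.F3.Jtors M n) : JZero M)) =
      ((kappaC M n c : Fermat.Agent.F3.Jtors M n) : JZero M) := by
  rw [kappaC_pushWAt, kappaC_pushWAt, wPar_wPar]

/-- **(Db)** `α_* (w_* (κ^{N₀ q}_n c)) = κ^{N₀}_n (coresParD N₀ q c)`. -/
theorem pushAlpha_pushWAt_kappaC (D : ALData) {N₀ q : ℕ} [NeZero N₀] [NeZero q]
    (hq : q.Prime) (hqN : ¬ q ∣ N₀) (hQ : D.Q = q) (hR : D.R = N₀)
    (hM : N₀ * q = D.Q * D.R) (n : ℕ) (c : HomPar (N₀ * q)) :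
    pushAlpha N₀ q (pushWAt D hM
        ((kappaC (N₀ * q) n c : Fermat.Agent.F3.Jtors (N₀ * q) n) : JZero (N₀ * q))) =
      ((kappaC N₀ n (coresParD N₀ q c) : Fermat.Agent.F3.Jtors N₀ n) : JZero N₀) := by
  haveI : NeZero (N₀ * q) := ⟨Nat.mul_ne_zero (NeZero.ne N₀) (NeZero.ne q)⟩
  rw [kappaC_pushWAt D hM, kappaC_pushAlpha hq hqN, coresPar_wPar D hq hqN hQ hR hM]

end Fermat.Agent.F3DegW
end
end MergeWrap_F3_I2_Deg_ALLevel

section MergeWrap_F3_I2_Deg_ALPushAt -- from F3/I2/Deg/ALPushAt.lean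

set_option autoImplicit false

noncomputable section

namespace Fermat.Agent.F3DegW

open ModularCurve AlgebraicCurve
open Fermat.Agent.F3I2 Fermat.Agent.F3G Fermat.Agent.F3Deg Fermat.Agent.F3DegP
open Fermat.Agent.AtkinLehner (ALData)

attribute [local instance] Fermat.Agent.F3DegP.neZero_level

/-- **(B)** `w_*` at level `M` commutes with the Galois action on `J₀(M)(ℚ̄)`. -/
theorem pushWAt_smul (D : ALData) {M : ℕ} (hM : M = D.Q * D.R)
    (σ : AlgebraicClosure ℚ ≃ₐ[ℚ] AlgebraicClosure ℚ) (y : JZero M) :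
    pushWAt D hM (σ • y) = σ • pushWAt D hM y := by
  subst hM
  rw [pushWAt_rfl]
  exact Fermat.Agent.F3DegP.pushW_smul D σ y

/-- **(C)** Kummer generators: `w_* [(1/n) div f] = [(1/n) div (w f)]` at level `M`. -/
theorem isRootDiv_pushWAt (D : ALData) {M : ℕ} (hM : M = D.Q * D.R) {n : ℕ}
    {f : ↥(modularFunctionFieldBar M)}
    {E : Divisor.degZero (K := AlgebraicClosure ℚ) (F := modularFunctionFieldBar M)}
    (hE : IsRootDiv n f E) :
    ∃ E' : Divisor.degZero (K := AlgebraicClosure ℚ) (F := modularFunctionFieldBar M),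
      pushWAt D hM (Pic0.mk E) = Pic0.mk E' ∧
        IsRootDiv n (Fermat.Agent.BadRed.wAt D hM f) E' := by
  subst hM
  rw [pushWAt_rfl, Fermat.Agent.BadRed.wAt_eq_rfl]
  exact Fermat.Agent.F3DegP.isRootDiv_pushW D hE

end Fermat.Agent.F3DegW
end
end MergeWrap_F3_I2_Deg_ALPushAt
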